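import Fermat.Agent.Lowering.P1.Brauer.Hasse.Lower

/-!
# The norm theorem of Hasse for Kummer extensions of prime degree
-/

set_option autoImplicit false
set_option linter.style.haveILetI false
set_option linter.unusedSectionVars false

noncomputable section

open scoped Pointwise Classical

namespace FLTAgent.Lowering.P1.Hasse

local notation "LL" => AlgebraicClosure ℚ
local notation "GG" => (AlgebraicClosure ℚ ≃ₐ[ℚ] AlgebraicClosure ℚ)
local notation "VS" => ValuationSubring (AlgebraicClosure ℚ)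

theorem targetNormTheorem : Brauer.TargetNormTheorem := by
  intro hF p hp hp3 L K hL hK hLK hζ hconj hidx b hbL hb0 hloc
  haveI := hL
  haveI := hK
  obtain ⟨σ, hσ, hσK⟩ : ∃ σ ∈ galOf L, σ ∉ galOf K := by
    by_contra hall
    push Not at hall
    exact hp.out.ne_one (hidx ▸ Subgroup.relIndex_eq_one.2 hall)
  have h : GCyc p L K σ := ⟨hLK, hconj, hidx, ⟨hσ, mem_dec_top σ⟩, hσK⟩
  obtain ⟨S₀, hS₀⟩ := exists_gen L
  obtain ⟨S₁, hS₁⟩ := Brauer.exists_finset_unramified K
  obtain ⟨S₂, hS₂⟩ := Brauer.exists_finset_eq_one hb0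
  set S := (insert p (S₀ ∪ S₁ ∪ S₂)).filter Nat.Prime with hS
  obtain ⟨R, hR, -, hiff⟩ := exists_places L S fun l hl => (Finset.mem_filter.1 hl).2
  have hout : ∀ (l : ℕ) (V : VS), l.Prime → V.LiesOverPrime l → ¬ InOrbit (galOf L) R V →
      l ∉ S₀ ∧ l ∉ S₁ ∧ l ∉ S₂ := fun l V hl hV hn => by
    have h1 : l ∉ S := fun hh => hn ((hiff l V hl hV).2 hh)
    simp only [hS, Finset.mem_filter, Finset.mem_insert, Finset.mem_union] at h1
    tauto
  have hgen : Gen L R := fun l V hl hV hn => by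
    obtain ⟨a, haL, ha0, -, hau, hone⟩ := hS₀ l V hl hV (hout l V hl hV hn).1
    exact ⟨a, haL, ha0, hau, fun q W hq hW hnW hne =>
      hone q W hq hW (hout q W hq hW hnW).1 hne⟩
  have hur : Unram L K R := fun l V hl hV hn τ _ hτ => hS₁ l V hl hV (hout l V hl hV hn).2.1 hτ
  have hpR : ∀ V : VS, V.LiesOverPrime p → InOrbit (galOf L) R V := fun V hV =>
    (hiff p V hp.out hV).2 (Finset.mem_filter.2 ⟨Finset.mem_insert_self _ _, hp.out⟩)
  have hbA : Units.mk0 b hb0 ∈ unitsAway L L R :=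
    ⟨hbL, fun l V hl hV hn => hS₂ l V hl hV (hout l V hl hV hn).2.2⟩
  obtain ⟨w, hwK, hwb⟩ := mem_norms hF.index h (by omega) hζ hR hgen hur hpR hbA fun V hV => by
    obtain ⟨l, hl, hVl⟩ := hR.lies V hV
    exact ⟨Loc.le_localField L V hbL, hloc l V hl hVl⟩
  have h1 := h.isNormOn (mem_fieldUnits_top.2 hwK)
  rw [hwb, Units.val_mk0,
    show (⊤ : VS).decompositionSubgroup ℚ = ⊤ from eq_top_iff.2 fun g _ => mem_dec_top g] at h1
  exact h1

end FLTAgent.Lowering.P1.Hasse
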