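import Fermat.Agent.Lowering.P1.Brauer.Hasse.Upper
import Fermat.Agent.Lowering.P1.Primes.Frobenius
import Fermat.Agent.FlatLocal.Groups

/-!
# Auxiliary split places
-/

set_option autoImplicit false
set_option linter.style.haveILetI false
set_option linter.unusedSectionVars false

noncomputable section

open scoped Pointwise Classical

namespace FLTAgent.Lowering.P1.Hasse

local notation "LL" => AlgebraicClosure ℚ
local notation "GG" => (AlgebraicClosure ℚ ≃ₐ[ℚ] AlgebraicClosure ℚ)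
local notation "VS" => ValuationSubring (AlgebraicClosure ℚ)

open Loc (SameOrbit fieldUnits intUnits bd nm coe_bd coe_nm mem_fieldUnits)

local instance (priority := 2000) algSubA (F : IntermediateField ℚ (AlgebraicClosure ℚ)) :
    Algebra ℚ F := F.algebra'

variable {p : ℕ} [hp : Fact p.Prime] {L K : IntermediateField ℚ LL}

/-- A root outside `K` stays outside at a split place. -/
theorem exists_moving_place [FiniteDimensional ℚ K] (hLK : L ≤ K) {y : LL} (hy : y ∉ K)
    (S : Finset ℕ) :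
    ∃ (q : ℕ) (V : VS), q.Prime ∧ q ∉ S ∧ V.LiesOverPrime q ∧
      V.decompositionSubgroup ℚ ≤ galOf K ∧
      ∃ τ ∈ galOf L ⊓ V.decompositionSubgroup ℚ, τ y ≠ y := by
  classical
  obtain ⟨σ₀, hσ₀, hσy⟩ : ∃ g ∈ galOf K, g y ≠ y := by
    by_contra hall
    push Not at hall
    exact hy (Brauer.mem_of_galOf_fixed hall)
  haveI : FiniteDimensional ℚ (IntermediateField.adjoin ℚ ({y} : Set LL)) :=
    IntermediateField.adjoin.finiteDimensional (Brauer.integral_coe y)
  obtain ⟨N, hNf, hNn, hle⟩ := Brauer.exists_normal_le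
    (K ⊔ IntermediateField.adjoin ℚ ({y} : Set LL))
  haveI := hNf
  haveI := hNn
  obtain ⟨S₁, hS₁⟩ := Brauer.exists_finset_unramified N
  obtain ⟨q, V, τ, i, j, hq, hqS, hV, hτ, hτj, hτi⟩ :=
    Primes.exists_frobenius_zpowers N σ₀ (S ∪ S₁)
  rw [Finset.mem_union, not_or] at hqS
  have hNK : N.fixingSubgroup ≤ galOf K :=
    IntermediateField.fixingSubgroup_antitone (le_sup_left.trans hle)
  have hτK : τ ∈ galOf K := by
    rw [show τ = σ₀ ^ j * ((σ₀ ^ j)⁻¹ * τ) by group]
    exact mul_mem (pow_mem hσ₀ j) (hNK hτj)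
  have hyN : y ∈ N := hle (le_sup_right (α := IntermediateField ℚ LL)
    (IntermediateField.mem_adjoin_simple_self ℚ y))
  refine ⟨q, V, hq, hqS.1, hV, fun g hg => ?_, τ ^ i,
    Subgroup.mem_inf.2 ⟨IntermediateField.fixingSubgroup_antitone hLK (pow_mem hτK i),
      pow_mem hτ.mem_decompositionSubgroup i⟩, fun hfix => hσy ?_⟩
  · haveI : Fact q.Prime := ⟨hq⟩
    obtain ⟨hmem, hres⟩ := hτ
    obtain ⟨k, ι, u, hι, hu, e⟩ :=
      FlatLocal.exists_decomp (P := V) hV (φ := ⟨τ, hmem⟩) hres N ⟨g, hg⟩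
    have e' : g = τ ^ k * (ι : GG) * (u : GG) := congrArg Subtype.val e
    rw [e']
    exact mul_mem (mul_mem (pow_mem hτK k) (hNK (hS₁ q V hq hV hqS.2 hι))) (hNK hu)
  · conv_lhs => rw [show σ₀ = τ ^ i * ((τ ^ i)⁻¹ * σ₀) by group, AlgEquiv.mul_apply,
      (IntermediateField.mem_fixingSubgroup_iff _ _).1 hτi y hyN, hfix]

theorem eq_top_of_index_prime {G : Type*} [Group G] {P Q U : Subgroup G} (hPQ : P ≤ Q)
    (hQU : Q ≤ U) (hidx : (P.relIndex U).Prime) (hne : ¬ Q ≤ P) : U ≤ Q := by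
  have h := Subgroup.relIndex_mul_relIndex P Q U hPQ hQU
  rcases (Nat.dvd_prime hidx).1 ⟨_, h.symm⟩ with h1 | h1
  · exact absurd (Subgroup.relIndex_eq_one.1 h1) hne
  · rw [h1] at h
    exact Subgroup.relIndex_eq_one.1 ((Nat.mul_eq_left hidx.ne_zero).1 h)

theorem unitsAway_le_intUnits {R : Finset VS} {l : ℕ} {V : VS} (hl : l.Prime)
    (hV : V.LiesOverPrime l) (hn : ¬ InOrbit (galOf L) R V) :
    unitsAway L L R ≤ intUnits L V := fun _ hu =>
  ⟨Loc.le_localField L V hu.1, hu.2 l V hl hV hn⟩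

/-- At most `p` classes of units become powers in `K`. -/
theorem index_kummer_le (σ : GG) (h : GCyc p L K σ) (hζ : ∃ ζ ∈ L, IsPrimitiveRoot ζ p)
    (R : Finset VS) :
    ((unitsAway L L R).map (powP LLˣ p)).relIndex
      ((fieldUnits K (⊤ : VS) ⊓ (unitsAway L L R).comap (powP LLˣ p)).map (powP LLˣ p)) ∣ p := by
  set A := unitsAway L L R
  set Y := fieldUnits K (⊤ : VS) ⊓ A.comap (powP LLˣ p) with hY
  have hAY : A ≤ Y := fun u hu => ⟨mem_fieldUnits_top.2 (h.le hu.1), pow_mem hu p⟩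
  have hker : Y ⊓ (bd σ).ker = A := by
    ext u
    refine ⟨fun ⟨⟨hu, hu'⟩, hb⟩ => ⟨mem_fieldUnits_top.1 ((h.bd_eq_one_iff hu).1 hb),
      fun l V hl hV hn => ?_⟩, fun hu => ⟨hAY hu, bd_eq_one h hu.1⟩⟩
    have h1 := hu'.2 l V hl hV hn
    rw [show ((powP LLˣ p u : LLˣ) : LL) = (u : LL) ^ p from rfl, map_pow] at h1
    exact (pow_eq_one_iff_left hp.out.ne_zero).1 h1
  haveI : NeZero p := ⟨hp.out.ne_zero⟩
  have hmap : Y.map (bd σ) ≤ rootsOfUnity p LL := by
    rintro _ ⟨u, ⟨-, hu⟩, rfl⟩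
    rw [mem_rootsOfUnity, ← map_pow]
    exact bd_eq_one h hu.1
  refine (relIndex_map_dvd _ hAY).trans ?_
  rw [← hker, Subgroup.inf_relIndex_left, Subgroup.relIndex_ker]
  obtain ⟨ζ, -, hζ⟩ := hζ
  exact (Subgroup.card_dvd_of_le hmap).trans (dvd_of_eq hζ.card_rootsOfUnity)

/-- Split auxiliary places at which the units away from `R` realise all classes. -/
theorem exists_aux (σ : GG) (h : GCyc p L K σ) [FiniteDimensional ℚ L] [FiniteDimensional ℚ K]
    (hp2 : 2 < p) (hζ : ∃ ζ ∈ L, IsPrimitiveRoot ζ p) {R : Finset VS} (hR : IsPlaces L R)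
    (hpR : ∀ V : VS, V.LiesOverPrime p → InOrbit (galOf L) R V) :
    ∀ k, k < Module.finrank ℚ L / 2 + R.card →
      ∃ T : Finset VS, T.card = k ∧ IsPlaces L (R ∪ T) ∧
        (∀ V ∈ T, ¬ InOrbit (galOf L) R V ∧ galOf L ⊓ V.decompositionSubgroup ℚ ≤ galOf K) ∧
        ∀ c : VS → LLˣ, (∀ V ∈ T, c V ∈ intUnits L V) →
          ∃ a ∈ unitsAway L L R, ∀ V ∈ T, a / c V ∈ (intUnits L V).map (powP LLˣ p) := by
  classical
  set A := unitsAway L L R with hA
  suffices hmain : ∀ k, k < Module.finrank ℚ L / 2 + R.card →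
      ∃ (T : Finset VS) (X : Subgroup LLˣ), T.card = k ∧ IsPlaces L (R ∪ T) ∧
        (∀ V ∈ T, ¬ InOrbit (galOf L) R V ∧ galOf L ⊓ V.decompositionSubgroup ℚ ≤ galOf K) ∧
        A.map (powP LLˣ p) ≤ X ∧ X ≤ A ∧
        (∀ x ∈ X, ∀ V ∈ T, x ∈ (intUnits L V).map (powP LLˣ p)) ∧ X.relIndex A ≤ p ^ k ∧
        ∀ c : VS → LLˣ, (∀ V ∈ T, c V ∈ intUnits L V) →
          ∃ a ∈ A, ∀ V ∈ T, a / c V ∈ (intUnits L V).map (powP LLˣ p) by
    intro k hk
    obtain ⟨T, X, h1, h2, h3, -, -, -, -, h4⟩ := hmain k hk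
    exact ⟨T, h1, h2, h3, h4⟩
  intro k
  induction k with
  | zero =>
    exact fun _ => ⟨∅, A, rfl, by rwa [Finset.union_empty], fun V hV => by simp at hV, map_pow_le A,
      le_rfl, fun x _ V hV => by simp at hV, by rw [Subgroup.relIndex_self, pow_zero],
      fun c _ => ⟨1, one_mem A, fun V hV => by simp at hV⟩⟩
  | succ k ih =>
    intro hk
    obtain ⟨T, X, hT, hRT, hTp, hPX, hXA, hXT, hXi, hsurj⟩ := ih (by omega)
    -- an element with no root in `K`
    obtain ⟨x, hxX, y, hyx, hyK⟩ : ∃ x ∈ X, ∃ y : LL, y ^ p = (x : LL) ∧ y ∉ K := by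
      by_contra hall
      push Not at hall
      have hXY : X ≤ (fieldUnits K (⊤ : VS) ⊓ A.comap (powP LLˣ p)).map (powP LLˣ p) := by
        intro x hx
        obtain ⟨y, hy⟩ := IsAlgClosed.exists_pow_nat_eq (x : LL) hp.out.pos
        have hy0 : y ≠ 0 := fun e => x.ne_zero (by rw [← hy, e, zero_pow hp.out.ne_zero])
        have e : powP LLˣ p (Units.mk0 y hy0) = x := Units.ext (by simpa using hy)
        exact ⟨Units.mk0 y hy0, ⟨mem_fieldUnits_top.2 (hall x hx y hy),
          Subgroup.mem_comap.2 (by rw [e]; exact hXA hx)⟩, e⟩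
      have h1 : ((A.map (powP LLˣ p))).relIndex X ≤ p :=
        (Subgroup.relIndex_le_of_le_right hXY fun e =>
          hp.out.ne_zero (zero_dvd_iff.1 (e ▸ index_kummer_le σ h hζ R))).trans
            (Nat.le_of_dvd hp.out.pos (index_kummer_le σ h hζ R))
      have h2 : (A.map (powP LLˣ p)).relIndex X * X.relIndex A =
          p ^ (Module.finrank ℚ L / 2 + R.card) := by
        rw [Subgroup.relIndex_mul_relIndex _ _ _ hPX hXA]
        exact relIndex_pow_unitsAway hp2 hζ hR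
      have h3 : p ^ (Module.finrank ℚ L / 2 + R.card) ≤ p ^ (k + 1) := by
        rw [← h2, pow_succ']
        exact Nat.mul_le_mul h1 hXi
      exact absurd ((Nat.pow_le_pow_iff_right hp.out.one_lt).1 h3) (by omega)
    -- a place where it is not a power
    choose lp hlp hover using fun V : ↥(R ∪ T) => hRT.lies V V.2
    obtain ⟨q, V, hq, hqS, hV, hVK, τ, hτ, hτy⟩ :=
      exists_moving_place h.le hyK (insert p (Finset.univ.image lp))
    rw [Finset.mem_insert, not_or] at hqS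
    have hnot : ¬ InOrbit (galOf L) (R ∪ T) V := by
      rintro ⟨W, hW, g, -, rfl⟩
      exact hqS.2 (Finset.mem_image.2 ⟨⟨W, hW⟩, Finset.mem_univ _, prime_unique (hlp ⟨W, hW⟩) hq
        (Places.liesOverPrime_smul _ _ (hover ⟨W, hW⟩)) hV⟩)
    have hnR : ¬ InOrbit (galOf L) R V := fun ⟨W, hW, e⟩ =>
      hnot ⟨W, Finset.mem_union_left _ hW, e⟩
    have hVT : V ∉ T := fun hh => hnot (inOrbit_of_mem (Finset.mem_union_right _ hh))
    set U := intUnits L V
    set P := U.map (powP LLˣ p)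
    have hAU : A ≤ U := unitsAway_le_intUnits hq hV hnR
    have hidx : P.relIndex U = p := by
      rw [Loc.relIndex_pow_intUnits hq hV p L hζ, if_neg hqS.1, add_zero, pow_one]
    have hxP : x ∉ P := by
      rintro ⟨z, hz, hzx⟩
      refine hτy ?_
      have hz0 := z.ne_zero
      have h1 : (y / (z : LL)) ^ p = 1 := by
        rw [div_pow, hyx, ← hzx]
        exact div_self (by simp [hz0])
      rw [← div_mul_cancel₀ y hz0, map_mul, (IntermediateField.mem_fixingSubgroup_iff _ _).1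
        hτ.1 _ (mem_of_pow_eq_one hζ h1), Loc.mem_localField.1 hz.1 τ hτ]
    refine ⟨insert V T, X ⊓ P, by rw [Finset.card_insert_of_notMem hVT, hT],
      ⟨fun W hW => ?_, fun W hW W' hW' hs => ?_⟩, fun W hW => ?_,
      le_inf hPX (Subgroup.map_mono hAU), inf_le_left.trans hXA, fun z hz W hW => ?_, ?_,
      fun c hc => ?_⟩
    · rw [Finset.union_insert, Finset.mem_insert] at hW
      rcases hW with rfl | hW
      exacts [⟨q, hq, hV⟩, hRT.lies W hW]
    · rw [Finset.union_insert, Finset.mem_insert] at hW hW'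
      rcases hW with e | hW <;> rcases hW' with e' | hW'
      · rw [e, e']
      · exact absurd ⟨W', hW', sameOrbit_symm (e ▸ hs)⟩ hnot
      · exact absurd ⟨W, hW, e' ▸ hs⟩ hnot
      · exact hRT.inj W hW W' hW' hs
    · rcases Finset.mem_insert.1 hW with rfl | hW
      · exact ⟨hnR, inf_le_right.trans hVK⟩
      · exact hTp W hW
    · rcases Finset.mem_insert.1 hW with rfl | hW
      exacts [hz.2, hXT z hz.1 W hW]
    · rw [← Subgroup.relIndex_mul_relIndex (X ⊓ P) X A inf_le_left hXA, pow_succ']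
      refine Nat.mul_le_mul ?_ hXi
      rw [Subgroup.inf_relIndex_left, ← hidx]
      exact Subgroup.relIndex_le_of_le_right (hXA.trans hAU) (hidx ▸ hp.out.ne_zero)
    · obtain ⟨a, ha, haT⟩ := hsurj c fun W hW => hc W (Finset.mem_insert_of_mem hW)
      have hle : U ≤ P ⊔ Subgroup.zpowers x :=
        eq_top_of_index_prime le_sup_left
          (sup_le (map_pow_le U) ((Subgroup.zpowers_le).2 (hAU (hXA hxX))))
          (hidx ▸ hp.out) fun hh => hxP (hh (Subgroup.mem_sup_right (Subgroup.mem_zpowers x)))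
      obtain ⟨w, hw, z, hz, hwz⟩ := Subgroup.mem_sup.1
        (hle (div_mem (hc V (Finset.mem_insert_self _ _)) (hAU ha)))
      obtain ⟨i, rfl⟩ := Subgroup.mem_zpowers_iff.1 hz
      refine ⟨a * x ^ i, mul_mem ha (zpow_mem (hXA hxX) i), fun W hW => ?_⟩
      rcases Finset.mem_insert.1 hW with rfl | hW
      · have e : a * x ^ i / c W = w⁻¹ := by
          rw [eq_inv_iff_mul_eq_one, div_mul_eq_mul_div, mul_assoc, mul_comm (x ^ i) w, hwz,
            mul_div_cancel, div_self']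
        rw [e]
        exact inv_mem hw
      · rw [mul_div_right_comm]
        exact mul_mem (haT W hW) (zpow_mem (hXT x hxX W hW) i)

end FLTAgent.Lowering.P1.Hasse
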