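import Mathlib

/-!
# The rank of a commutative group seen through the index of its powers

`PowRank p A d` says that `A` has `p ^ d` times as many classes modulo `p`-th powers as
elements killed by `p`. This number is invariant under passing to subgroups of finite index and
is additive in exact sequences.
-/

set_option autoImplicit false
set_option linter.style.haveILetI false
set_option linter.unusedSectionVars false

noncomputable section

namespace FLTAgent.Lowering.P1.Hasse

variable {G : Type*} [CommGroup G]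

/-- The power map. -/
abbrev powP (G : Type*) [CommGroup G] (p : ℕ) : G →* G := powMonoidHom p

/-- `A` has rank `d` as seen by the power map. -/
def PowRank (p : ℕ) (A : Subgroup G) (d : ℕ) : Prop :=
  (A.map (powP G p)).relIndex A = p ^ d * Nat.card ↥(A ⊓ (powP G p).ker)

variable {p : ℕ}

theorem map_pow_le (A : Subgroup G) : A.map (powP G p) ≤ A := by
  rintro _ ⟨x, hx, rfl⟩
  exact pow_mem hx p

theorem card_inf_ne_zero [Finite ↥(powP G p).ker] (A : Subgroup G) :
    Nat.card ↥(A ⊓ (powP G p).ker) ≠ 0 := by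
  haveI : Finite ↥(A ⊓ (powP G p).ker) :=
    Finite.of_injective _ (Subgroup.inclusion_injective inf_le_right)
  exact Nat.card_ne_zero.2 ⟨⟨1⟩, inferInstance⟩

/-- Comparison of a subgroup with the group above. -/
theorem pow_index_sub {A B : Subgroup G} (hBA : B ≤ A) :
    B.relIndex A * (B.map (powP G p)).relIndex B * Nat.card ↥(B ⊓ (powP G p).ker) =
      (B ⊔ (A ⊓ (powP G p).ker)).relIndex A * (A.map (powP G p)).relIndex A *
        Nat.card ↥(B ⊓ (powP G p).ker) := by
  congr 1
  rw [mul_comm, Subgroup.relIndex_mul_relIndex _ _ _ (map_pow_le B) hBA,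
    ← Subgroup.relIndex_mul_relIndex _ _ _ (Subgroup.map_mono hBA) (map_pow_le A),
    Subgroup.relIndex_map_map]
  congr 1
  have h1 : (B ⊔ (powP G p).ker) ⊓ A = B ⊔ (A ⊓ (powP G p).ker) := by
    rw [sup_inf_assoc_of_le _ hBA, inf_comm]
  rw [show A ⊔ (powP G p).ker = A ⊔ (B ⊔ (powP G p).ker) by
      rw [← sup_assoc, sup_eq_left.2 hBA],
    Subgroup.relIndex_sup_right, ← Subgroup.inf_relIndex_right, h1]

/-- The power index in a subgroup of finite index. -/
theorem pow_index_eq {A B : Subgroup G} (hBA : B ≤ A) (hfin : B.relIndex A ≠ 0) :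
    (B.map (powP G p)).relIndex B * Nat.card ↥(A ⊓ (powP G p).ker) =
      (A.map (powP G p)).relIndex A * Nat.card ↥(B ⊓ (powP G p).ker) := by
  set K := A ⊓ (powP G p).ker with hK
  have h1 := pow_index_sub (p := p) hBA
  have h2 : B.relIndex A = B.relIndex (B ⊔ K) * (B ⊔ K).relIndex A :=
    (Subgroup.relIndex_mul_relIndex _ _ _ le_sup_left (sup_le hBA inf_le_left)).symm
  have h3 : B.relIndex (B ⊔ K) * Nat.card ↥(B ⊓ (powP G p).ker) = Nat.card ↥K := by
    have e : B ⊓ (powP G p).ker = B ⊓ K := by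
      rw [hK, ← inf_assoc, inf_eq_left.2 hBA]
    rw [Subgroup.relIndex_sup_left, ← Subgroup.inf_relIndex_right, e, mul_comm,
      ← Subgroup.relIndex_bot_left, ← Subgroup.relIndex_bot_left,
      Subgroup.relIndex_mul_relIndex _ _ _ bot_le inf_le_right]
  rw [h2] at h1 hfin
  have hne := right_ne_zero_of_mul hfin
  refine mul_left_cancel₀ hne ?_
  calc (B ⊔ K).relIndex A * ((B.map (powP G p)).relIndex B * Nat.card ↥K)
      = B.relIndex (B ⊔ K) * (B ⊔ K).relIndex A * (B.map (powP G p)).relIndex B *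
          Nat.card ↥(B ⊓ (powP G p).ker) := by rw [← h3]; ring
    _ = _ := by rw [h1]; ring

/-- The rank of a subgroup of finite index. -/
theorem PowRank.sub [Finite ↥(powP G p).ker] {A B : Subgroup G} {d : ℕ} (h : PowRank p A d)
    (hBA : B ≤ A) (hfin : B.relIndex A ≠ 0) : PowRank p B d := by
  have h1 := pow_index_eq (p := p) hBA hfin
  rw [h, mul_right_comm] at h1
  exact mul_right_cancel₀ (card_inf_ne_zero A) h1

/-- The rank of a group with a known subgroup of finite index. -/
theorem PowRank.sup [Finite ↥(powP G p).ker] {A B : Subgroup G} {d : ℕ} (h : PowRank p B d)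
    (hBA : B ≤ A) (hfin : B.relIndex A ≠ 0) : PowRank p A d := by
  have h1 := pow_index_eq (p := p) hBA hfin
  rw [h, mul_right_comm] at h1
  exact (mul_right_cancel₀ (card_inf_ne_zero B) h1).symm

variable {G' : Type*} [CommGroup G']

theorem powP_map (f : G →* G') (x : G) : f (powP G p x) = powP G' p (f x) := map_pow f x p

theorem map_map_pow (f : G →* G') (A : Subgroup G) :
    (A.map (powP G p)).map f = (A.map f).map (powP G' p) := by
  rw [Subgroup.map_map, Subgroup.map_map]
  congr 1
  exact MonoidHom.ext (powP_map f)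

/-- The power indices in an exact sequence. -/
theorem pow_index_exact (A : Subgroup G) (f : G →* G') :
    (A.map (powP G p)).relIndex A * Nat.card ↥(A ⊓ f.ker ⊓ (powP G p).ker) *
        Nat.card ↥(A.map f ⊓ (powP G' p).ker) =
      ((A ⊓ f.ker).map (powP G p)).relIndex (A ⊓ f.ker) *
        ((A.map f).map (powP G' p)).relIndex (A.map f) * Nat.card ↥(A ⊓ (powP G p).ker) := by
  set P := powP G p
  set M := A ⊓ f.ker with hM
  set AP := A.map P
  have hAP : AP ≤ A := map_pow_le A
  have hMA : M ≤ A := inf_le_left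
  -- through the powers and the kernel
  have e1 : AP.relIndex A = AP.relIndex (AP ⊔ M) * (AP ⊔ M).relIndex A :=
    (Subgroup.relIndex_mul_relIndex _ _ _ le_sup_left (sup_le hAP hMA)).symm
  have e2 : (AP ⊔ M).relIndex A = ((A.map f).map (powP G' p)).relIndex (A.map f) := by
    rw [← map_map_pow, Subgroup.relIndex_map_map]
    have hmod : (AP ⊔ f.ker) ⊓ A = AP ⊔ M := by
      rw [sup_inf_assoc_of_le _ hAP, inf_comm]
    rw [show A ⊔ f.ker = A ⊔ (AP ⊔ f.ker) by rw [← sup_assoc, sup_eq_left.2 hAP],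
      Subgroup.relIndex_sup_right, ← Subgroup.inf_relIndex_right (AP ⊔ f.ker), hmod]
  have e3 : AP.relIndex (AP ⊔ M) = (AP ⊓ M).relIndex M := by
    rw [Subgroup.relIndex_sup_left, Subgroup.inf_relIndex_right]
  have e4 : (M.map P).relIndex M = (M.map P).relIndex (AP ⊓ M) * (AP ⊓ M).relIndex M :=
    (Subgroup.relIndex_mul_relIndex _ _ _
      (le_inf (Subgroup.map_mono hMA) (map_pow_le M)) inf_le_right).symm
  -- the powers in the kernel
  set A' := A ⊓ ((powP G' p).ker).comap f with hA'
  have hMA' : M ≤ A' := le_inf hMA (inf_le_right.trans (Subgroup.comap_mono bot_le : f.ker ≤ _))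
  have hKA' : A ⊓ P.ker ≤ A' := le_inf inf_le_left fun x hx => by
    show powP G' p (f x) = 1
    rw [← powP_map, show P x = 1 from hx.2, map_one]
  have e5 : AP ⊓ M = A'.map P := by
    ext x
    constructor
    · rintro ⟨⟨y, hy, rfl⟩, -, hk⟩
      refine ⟨y, ⟨hy, ?_⟩, rfl⟩
      show powP G' p (f y) = 1
      rw [← powP_map]
      exact hk
    · rintro ⟨y, ⟨hy, hy'⟩, rfl⟩
      refine ⟨⟨y, hy, rfl⟩, pow_mem hy p, ?_⟩
      show f (P y) = 1
      rw [powP_map]
      exact hy'
  set K := A ⊓ P.ker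
  have e6 : (M.map P).relIndex (AP ⊓ M) = (M ⊔ K).relIndex A' := by
    rw [e5, Subgroup.relIndex_map_map]
    have hmod : (M ⊔ P.ker) ⊓ A' = M ⊔ K := by
      rw [sup_inf_assoc_of_le _ hMA']
      congr 1
      exact le_antisymm (le_inf (inf_le_right.trans inf_le_left) inf_le_left)
        (le_inf inf_le_right hKA')
    rw [show A' ⊔ P.ker = A' ⊔ (M ⊔ P.ker) by rw [← sup_assoc, sup_eq_left.2 hMA'],
      Subgroup.relIndex_sup_right, ← Subgroup.inf_relIndex_right, hmod]
  have e7 : M.relIndex A' = Nat.card ↥(A.map f ⊓ (powP G' p).ker) := by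
    rw [← Subgroup.relIndex_bot_left]
    have hmap : A'.map f = A.map f ⊓ (powP G' p).ker := by
      ext x
      constructor
      · rintro ⟨y, ⟨hy, hy'⟩, rfl⟩
        exact ⟨⟨y, hy, rfl⟩, hy'⟩
      · rintro ⟨⟨y, hy, rfl⟩, hy'⟩
        exact ⟨y, ⟨hy, hy'⟩, rfl⟩
    rw [← hmap, ← Subgroup.map_bot f, Subgroup.relIndex_map_map, bot_sup_eq,
      Subgroup.relIndex_sup_right, ← Subgroup.inf_relIndex_right f.ker]
    congr 1
    exact le_antisymm (le_inf inf_le_right hMA') (le_inf (inf_le_right.trans inf_le_left) inf_le_left)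
  have e8 : M.relIndex A' = M.relIndex (M ⊔ K) * (M ⊔ K).relIndex A' :=
    (Subgroup.relIndex_mul_relIndex _ _ _ le_sup_left (sup_le hMA' hKA')).symm
  have e9 : M.relIndex (M ⊔ K) * Nat.card ↥(M ⊓ P.ker) = Nat.card ↥K := by
    have e : M ⊓ P.ker = M ⊓ K := by
      rw [← inf_assoc, inf_eq_left.2 hMA]
    rw [Subgroup.relIndex_sup_left, ← Subgroup.inf_relIndex_right, e, mul_comm,
      ← Subgroup.relIndex_bot_left, ← Subgroup.relIndex_bot_left,
      Subgroup.relIndex_mul_relIndex _ _ _ bot_le inf_le_right]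
  rw [← e7, e8, e1, e2, e3, e4, e6, ← e9]
  ring

/-- The rank of a kernel. -/
theorem PowRank.kernel [Finite ↥(powP G p).ker] [Finite ↥(powP G' p).ker] (hp : p ≠ 0)
    {A : Subgroup G} {f : G →* G'} {a b : ℕ} (ha : PowRank p A a) (hb : PowRank p (A.map f) b)
    (hba : b ≤ a) : PowRank p (A ⊓ f.ker) (a - b) := by
  have h := pow_index_exact (p := p) A f
  rw [ha, hb] at h
  have hne : p ^ b * Nat.card ↥(A.map f ⊓ (powP G' p).ker) *
      Nat.card ↥(A ⊓ (powP G p).ker) ≠ 0 :=
    mul_ne_zero (mul_ne_zero (pow_ne_zero _ hp) (card_inf_ne_zero _)) (card_inf_ne_zero _)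
  refine (mul_left_cancel₀ hne ?_).symm
  calc p ^ b * Nat.card ↥(A.map f ⊓ (powP G' p).ker) * Nat.card ↥(A ⊓ (powP G p).ker) *
        (p ^ (a - b) * Nat.card ↥(A ⊓ f.ker ⊓ (powP G p).ker))
      = p ^ ((a - b) + b) * Nat.card ↥(A ⊓ (powP G p).ker) *
          Nat.card ↥(A ⊓ f.ker ⊓ (powP G p).ker) * Nat.card ↥(A.map f ⊓ (powP G' p).ker) := by
        rw [pow_add]; ring
    _ = _ := by rw [Nat.sub_add_cancel hba, h]; ring

/-- The rank of an extension. -/
theorem PowRank.extension [Finite ↥(powP G p).ker] [Finite ↥(powP G' p).ker]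
    {A : Subgroup G} {f : G →* G'} {a b : ℕ} (ha : PowRank p (A ⊓ f.ker) a)
    (hb : PowRank p (A.map f) b) : PowRank p A (a + b) := by
  have h := pow_index_exact (p := p) A f
  rw [ha, hb] at h
  refine mul_right_cancel₀ (mul_ne_zero (card_inf_ne_zero (p := p) (A ⊓ f.ker))
    (card_inf_ne_zero (p := p) (A.map f))) ?_
  rw [← mul_assoc, h, pow_add]
  ring

/-- The rank is invariant under injective maps. -/
theorem PowRank.map {A : Subgroup G} {d : ℕ} (h : PowRank p A d) {f : G →* G'}
    (hf : Function.Injective f) : PowRank p (A.map f) d := by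
  have e : A.map f ⊓ (powP G' p).ker = (A ⊓ (powP G p).ker).map f := by
    ext x
    constructor
    · rintro ⟨⟨y, hy, rfl⟩, hy'⟩
      exact ⟨y, ⟨hy, hf (by rw [powP_map, map_one]; exact hy')⟩, rfl⟩
    · rintro ⟨y, ⟨hy, hy'⟩, rfl⟩
      refine ⟨⟨y, hy, rfl⟩, ?_⟩
      show powP G' p (f y) = 1
      rw [← powP_map, show powP G p y = 1 from hy', map_one]
  unfold PowRank at h ⊢
  rw [← map_map_pow, Subgroup.relIndex_map_map_of_injective _ _ hf, h, e]
  congr 1
  exact Nat.card_congr (Subgroup.equivMapOfInjective _ f hf).toEquiv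

/-- The powers in a lattice. -/
theorem index_pow_lattice (ι : Type*) [Fintype ι] (m : ℕ) [NeZero m] :
    (powP (Multiplicative (ι → ℤ)) m).range.index = m ^ Fintype.card ι := by
  let q : Multiplicative (ι → ℤ) →* Multiplicative (ι → ZMod m) :=
    AddMonoidHom.toMultiplicative (AddMonoidHom.compLeft (Int.castAddHom (ZMod m)) ι)
  have hq : Function.Surjective q := fun x => ⟨Multiplicative.ofAdd
    (fun i => ((x.toAdd i).val : ℤ)), Multiplicative.toAdd.injective (funext fun i => by simp [q])⟩
  have hker : (powP (Multiplicative (ι → ℤ)) m).range = q.ker := by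
    ext x
    constructor
    · rintro ⟨y, rfl⟩
      refine Multiplicative.toAdd.injective (funext fun i => ?_)
      simp [q]
    · intro hx
      have h : ∀ i, (m : ℤ) ∣ x.toAdd i := fun i => by
        have := congrFun (congrArg Multiplicative.toAdd hx) i
        exact (ZMod.intCast_zmod_eq_zero_iff_dvd _ _).1 (by simpa [q] using this)
      choose c hc using h
      exact ⟨Multiplicative.ofAdd c, Multiplicative.toAdd.injective (funext fun i => by
        simp [hc i])⟩
  rw [hker, Subgroup.index_ker, MonoidHom.range_eq_top.2 hq, Subgroup.card_top,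
    Nat.card_congr Multiplicative.toAdd, Nat.card_fun, Nat.card_zmod, Nat.card_eq_fintype_card]

theorem ker_pow_lattice (ι : Type*) {m : ℕ} (hm : m ≠ 0) :
    (powP (Multiplicative (ι → ℤ)) m).ker = ⊥ := by
  rw [eq_bot_iff]
  intro x hx
  refine Subgroup.mem_bot.2 (Multiplicative.toAdd.injective (funext fun i => ?_))
  have h := congrFun (congrArg Multiplicative.toAdd (show powP _ m x = 1 from hx)) i
  simpa [hm] using h

/-- The rank of a lattice. -/
theorem powRank_lattice (ι : Type*) [Fintype ι] [NeZero p] :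
    PowRank p (⊤ : Subgroup (Multiplicative (ι → ℤ))) (Fintype.card ι) := by
  unfold PowRank
  rw [← MonoidHom.range_eq_map, Subgroup.relIndex_top_right, index_pow_lattice,
    ker_pow_lattice ι (NeZero.ne p), inf_bot_eq, Subgroup.card_bot, mul_one]

end FLTAgent.Lowering.P1.Hasse
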