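import Fermat.Agent.Lowering.P1.Brauer.Split
import Fermat.Agent.Lowering.P1.Local.Cyclic
import Fermat.Agent.Lowering.P1.Brauer.Hasse.Index

/-!
# Numbers which are units away from finitely many places
-/

set_option autoImplicit false
set_option linter.style.haveILetI false
set_option linter.unusedSectionVars false

noncomputable section

open scoped Pointwise NumberField

namespace FLTAgent.Lowering.P1.Hasse

local notation "LL" => AlgebraicClosure ℚ
local notation "GG" => (AlgebraicClosure ℚ ≃ₐ[ℚ] AlgebraicClosure ℚ)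
local notation "VS" => ValuationSubring (AlgebraicClosure ℚ)

open Loc (SameOrbit OverPrimes)

/-- The place `V` lies in one of the orbits of `R` under `H`. -/
def InOrbit (H : Subgroup GG) (R : Finset VS) (V : VS) : Prop := ∃ W ∈ R, SameOrbit H W V

/-- `R` is a system of places over primes, pairwise not conjugate over `L`. -/
structure IsPlaces (L : IntermediateField ℚ LL) (R : Finset VS) : Prop where
  lies : OverPrimes R
  inj : ∀ V ∈ R, ∀ W ∈ R, SameOrbit (galOf L) V W → V = W

/-- The non-zero numbers of `F` which are units outside the orbits of `R` under `galOf L`. -/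
def unitsAway (F L : IntermediateField ℚ LL) (R : Finset VS) : Subgroup LLˣ where
  carrier := {u | (u : LL) ∈ F ∧ ∀ (l : ℕ) (V : VS), l.Prime → V.LiesOverPrime l →
    ¬ InOrbit (galOf L) R V → V.valuation (u : LL) = 1}
  one_mem' := ⟨by rw [Units.val_one]; exact one_mem F, fun _ _ _ _ _ => by simp⟩
  mul_mem' := fun {a b} ha hb => ⟨by rw [Units.val_mul]; exact mul_mem ha.1 hb.1,
    fun l V hl hV h => by rw [Units.val_mul, map_mul, ha.2 l V hl hV h, hb.2 l V hl hV h, mul_one]⟩
  inv_mem' := fun {a} ha => ⟨by rw [Units.val_inv_eq_inv_val]; exact inv_mem ha.1,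
    fun l V hl hV h => by rw [Units.val_inv_eq_inv_val, map_inv₀, ha.2 l V hl hV h, inv_one]⟩

theorem mem_unitsAway {F L : IntermediateField ℚ LL} {R : Finset VS} {u : LLˣ} :
    u ∈ unitsAway F L R ↔ (u : LL) ∈ F ∧ ∀ (l : ℕ) (V : VS), l.Prime → V.LiesOverPrime l →
      ¬ InOrbit (galOf L) R V → V.valuation (u : LL) = 1 := Iff.rfl

theorem sameOrbit_refl (H : Subgroup GG) (V : VS) : SameOrbit H V V := ⟨1, one_mem H, one_smul _ V⟩

theorem sameOrbit_symm {H : Subgroup GG} {V W : VS} (h : SameOrbit H V W) : SameOrbit H W V := by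
  obtain ⟨σ, hσ, rfl⟩ := h
  exact ⟨σ⁻¹, inv_mem hσ, inv_smul_smul σ V⟩

theorem sameOrbit_trans {H : Subgroup GG} {U V W : VS} (h : SameOrbit H U V)
    (h' : SameOrbit H V W) : SameOrbit H U W := by
  obtain ⟨σ, hσ, rfl⟩ := h
  obtain ⟨τ, hτ, rfl⟩ := h'
  exact ⟨τ * σ, mul_mem hτ hσ, mul_smul τ σ U⟩

theorem inOrbit_congr {H : Subgroup GG} {R : Finset VS} {V W : VS} (h : SameOrbit H V W) :
    InOrbit H R V ↔ InOrbit H R W :=
  ⟨fun ⟨U, hU, hUV⟩ => ⟨U, hU, sameOrbit_trans hUV h⟩,
    fun ⟨U, hU, hUW⟩ => ⟨U, hU, sameOrbit_trans hUW (sameOrbit_symm h)⟩⟩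

theorem inOrbit_of_mem {H : Subgroup GG} {R : Finset VS} {V : VS} (h : V ∈ R) : InOrbit H R V :=
  ⟨V, h, sameOrbit_refl H V⟩

theorem IsPlaces.subset {L : IntermediateField ℚ LL} {R R' : Finset VS} (h : IsPlaces L R)
    (hR : R' ⊆ R) : IsPlaces L R' :=
  ⟨fun V hV => h.lies V (hR hV), fun V hV W hW => h.inj V (hR hV) W (hR hW)⟩

theorem unitsAway_mono {F L : IntermediateField ℚ LL} {R R' : Finset VS} (h : R ⊆ R') :
    unitsAway F L R ≤ unitsAway F L R' := fun _ hu =>
  ⟨hu.1, fun l V hl hV hn => hu.2 l V hl hV fun ⟨W, hW, hWV⟩ => hn ⟨W, h hW, hWV⟩⟩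

theorem unitsAway_le_of_le {F F' L : IntermediateField ℚ LL} {R : Finset VS} (h : F ≤ F') :
    unitsAway F L R ≤ unitsAway F' L R := fun _ hu => ⟨h hu.1, hu.2⟩

/-- Valuations of numbers at conjugate places. -/
theorem smul_val_eq_iff (g : GG) (V : VS) (x y : LL) :
    (g • V).valuation (g x) = (g • V).valuation (g y) ↔ V.valuation x = V.valuation y := by
  rw [le_antisymm_iff, le_antisymm_iff, Loc.smul_val_le_iff g rfl, Loc.smul_val_le_iff g rfl]

theorem smul_val_eq_one_iff (g : GG) (V : VS) (x : LL) :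
    (g • V).valuation (g x) = 1 ↔ V.valuation x = 1 := by
  have h := smul_val_eq_iff g V x 1
  rwa [map_one g, map_one, map_one] at h

/-- A place containing the inverses of all primes is everything. -/
theorem eq_top_of_no_prime {V : VS} (h : ∀ l : ℕ, l.Prime → ¬ V.LiesOverPrime l) (x : LL) :
    x ∈ V := by
  have hl : ∀ n : ℕ, n ≠ 0 → V.valuation (n : LL) = 1 := by
    intro n
    induction n using induction_on_primes with
    | zero => exact fun h => absurd rfl h
    | one => exact fun _ => by simp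
    | prime_mul q a hq ih =>
      intro hn
      rw [Nat.cast_mul, map_mul, ih (right_ne_zero_of_mul hn), mul_one]
      refine le_antisymm ((V.valuation_le_one_iff _).2 (natCast_mem V q)) (not_lt.1 fun hlt => ?_)
      exact h q hq (V.mem_nonunits_iff.2 hlt)
  have hQ : ∀ q : ℚ, (algebraMap ℚ LL q) ∈ V := fun q => by
    refine (V.valuation_le_one_iff _).1 ?_
    rw [← Rat.num_div_den q, map_div₀, map_div₀, map_intCast, map_natCast, hl _ q.den_nz, div_one]
    exact (V.valuation_le_one_iff _).2 (intCast_mem V _)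
  obtain ⟨f, hf, hfx⟩ := Brauer.integral_coe x
  let φ : ℚ →+* V := (algebraMap ℚ LL).codRestrict V.toSubring hQ
  have hint : IsIntegral V x := ⟨f.map φ, hf.map φ, by rw [Polynomial.eval₂_map]; exact hfx⟩
  obtain ⟨y, rfl⟩ := IsIntegrallyClosed.isIntegral_iff.mp hint
  exact y.2

/-- A number which is integral at every place is an algebraic integer. -/
theorem isIntegral_of_forall_le {x : LL}
    (h : ∀ (l : ℕ) (V : VS), l.Prime → V.LiesOverPrime l → V.valuation x ≤ 1) : IsIntegral ℤ x := by
  by_contra hx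
  have hcl : Subring.closure (∅ : Set LL) = ⊥ := Subring.closure_empty
  have hmem : x ∉ (integralClosure (Subring.closure (∅ : Set LL)) LL).toSubring := by
    intro hm
    refine hx ?_
    obtain ⟨f, hf, hfx⟩ : IsIntegral (Subring.closure (∅ : Set LL)) x := hm
    have hsurj : Function.Surjective (Int.castRingHom (Subring.closure (∅ : Set LL))) := by
      rintro ⟨y, hy⟩
      rw [hcl, Subring.mem_bot] at hy
      obtain ⟨n, rfl⟩ := hy
      exact ⟨n, Subtype.ext (by simp)⟩
    obtain ⟨g, hg, -, hgm⟩ := Polynomial.lifts_and_degree_eq_and_monic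
      (Polynomial.map_surjective _ hsurj f) hf
    refine ⟨g, hgm, ?_⟩
    rw [← hfx, ← hg, Polynomial.eval₂_map]
    congr 1
  rw [← iInf_valuationSubring_superset] at hmem
  rw [Subring.mem_iInf, not_forall] at hmem
  obtain ⟨W, hV⟩ := hmem
  obtain ⟨V, hs⟩ := W
  by_cases hp : ∀ l : ℕ, l.Prime → ¬ V.LiesOverPrime l
  · exact hV (eq_top_of_no_prime hp x)
  · push Not at hp
    obtain ⟨l, hl, hlV⟩ := hp
    exact hV ((V.valuation_le_one_iff x).1 (h l V hl hlV))

local instance (priority := 2000) algSub (F : IntermediateField ℚ (AlgebraicClosure ℚ)) :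
    Algebra ℚ F := F.algebra'

/-- The inclusion of the units of the integers of a number field. -/
def unitIncl (F : IntermediateField ℚ LL) : (𝓞 F)ˣ →* LLˣ :=
  Units.map (((algebraMap F LL).comp (algebraMap (𝓞 F) F)) : 𝓞 F →+* LL).toMonoidHom

theorem unitIncl_injective (F : IntermediateField ℚ LL) : Function.Injective (unitIncl F) :=
  Units.map_injective ((algebraMap F LL).injective.comp (FaithfulSMul.algebraMap_injective _ _))

theorem coe_unitIncl (F : IntermediateField ℚ LL) (u : (𝓞 F)ˣ) :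
    ((unitIncl F u : LLˣ) : LL) = ((u : 𝓞 F) : F) := rfl

/-- The numbers which are units everywhere are the units of the integers. -/
theorem unitsAway_empty (F L : IntermediateField ℚ LL) :
    unitsAway F L ∅ = (unitIncl F).range := by
  ext u
  constructor
  · rintro ⟨huF, hu⟩
    have hno : ∀ V : VS, ¬ InOrbit (galOf L) ∅ V := fun V ⟨W, hW, _⟩ => by simp at hW
    have h1 : IsIntegral ℤ (⟨(u : LL), huF⟩ : F) :=
      (isIntegral_algHom_iff (F.val.restrictScalars ℤ) Subtype.val_injective).1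
        (isIntegral_of_forall_le fun l V hl hV => (hu l V hl hV (hno V)).le)
    have h2 : IsIntegral ℤ (⟨((u⁻¹ : LLˣ) : LL), by rw [Units.val_inv_eq_inv_val]; exact inv_mem huF⟩ : F) :=
      (isIntegral_algHom_iff (F.val.restrictScalars ℤ) Subtype.val_injective).1
        (isIntegral_of_forall_le fun l V hl hV => by
          show V.valuation ((u⁻¹ : LLˣ) : LL) ≤ 1
          rw [Units.val_inv_eq_inv_val, map_inv₀, hu l V hl hV (hno V), inv_one])
    refine ⟨⟨⟨_, h1⟩, ⟨_, h2⟩, ?_, ?_⟩, Units.ext rfl⟩ <;>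
      exact NumberField.RingOfIntegers.ext (Subtype.ext (by simp))
  · rintro ⟨w, rfl⟩
    refine ⟨by rw [coe_unitIncl]; exact SetLike.coe_mem _, fun l V _ _ _ => ?_⟩
    have hle : ∀ x : (𝓞 F)ˣ, V.valuation ((unitIncl F x : LLˣ) : LL) ≤ 1 := fun x =>
      (V.valuation_le_one_iff _).2 (Frobenius.integralClosure_le V
        (Mazur.intEmbed F (x : 𝓞 F)))
    refine le_antisymm (hle w) ?_
    have h1 := hle w⁻¹
    rw [map_inv, Units.val_inv_eq_inv_val, map_inv₀, inv_le_one₀
      (Mazur.valuation_pos V (Units.ne_zero _))] at h1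
    exact h1

end FLTAgent.Lowering.P1.Hasse
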