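import Fermat.Agent.Lowering.P1.Brauer.Hasse.Places

/-!
# The sum of the local degrees
-/

set_option autoImplicit false
set_option linter.style.haveILetI false
set_option linter.unusedSectionVars false

noncomputable section

open scoped Pointwise

namespace FLTAgent.Lowering.P1.Hasse

local notation "LL" => AlgebraicClosure ℚ
local notation "GG" => (AlgebraicClosure ℚ ≃ₐ[ℚ] AlgebraicClosure ℚ)
local notation "VS" => ValuationSubring (AlgebraicClosure ℚ)

open Loc (SameOrbit)

local instance (priority := 2000) algSubD (F : IntermediateField ℚ (AlgebraicClosure ℚ)) :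
    Algebra ℚ F := F.algebra'

/-- The local degrees above a prime add up to the degree. -/
theorem sum_local_degree (L : IntermediateField ℚ LL) [FiniteDimensional ℚ L] {R : Finset VS}
    (hR : IsPlaces L R) {l : ℕ} (hl : l.Prime)
    (hall : ∀ V : VS, V.LiesOverPrime l → InOrbit (galOf L) R V) {Rl : Finset VS}
    (hRl : ∀ V, V ∈ Rl ↔ V ∈ R ∧ V.LiesOverPrime l) :
    ∑ V ∈ Rl, (galOf L).relIndex (V.decompositionSubgroup ℚ) = Module.finrank ℚ L := by
  classical
  haveI := Loc.finiteIndex_galOf L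
  obtain ⟨V₀, hV₀⟩ := Frobenius.exists_liesOverPrime l hl
  have hg : ∀ V : Rl, ∃ g : GG, g • (V : VS) = V₀ := fun V =>
    Places.exists_smul_eq hl ((hRl V).1 V.2).2 hV₀
  choose g hg using hg
  let D : Rl → Type := fun V =>
    ↥((V : VS).decompositionSubgroup ℚ) ⧸ (galOf L).subgroupOf ((V : VS).decompositionSubgroup ℚ)
  let F : (Σ V, D V) → GG ⧸ galOf L := fun x =>
    Quotient.liftOn' x.2 (fun d => QuotientGroup.mk (g x.1 * (d : GG))) fun a b hab => by
      rw [QuotientGroup.leftRel_apply, Subgroup.mem_subgroupOf] at hab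
      rw [QuotientGroup.eq]
      simpa [mul_assoc] using hab
  have hF : Function.Bijective F := by
    refine ⟨?_, fun x => ?_⟩
    · rintro ⟨V, a⟩ ⟨W, b⟩ hab
      obtain ⟨a, rfl⟩ := Quotient.exists_rep a
      obtain ⟨b, rfl⟩ := Quotient.exists_rep b
      have hab' : (g V * (a : GG))⁻¹ * (g W * (b : GG)) ∈ galOf L := QuotientGroup.eq.1 hab
      have hVW : (V : VS) = W := by
        refine (hR.inj _ ((hRl W).1 W.2).1 _ ((hRl V).1 V.2).1 ⟨_, hab', ?_⟩).symm
        rw [mul_inv_rev, mul_smul, mul_smul, mul_smul,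
          show (b : GG) • (W : VS) = W from b.2, hg W, ← hg V, inv_smul_smul,
          show (a : GG)⁻¹ • (V : VS) = V from inv_smul_eq_iff.2 (a.2 : (a : GG) • (V : VS) = V).symm]
      obtain rfl : V = W := Subtype.ext hVW
      congr 1
      refine Quotient.sound (QuotientGroup.leftRel_apply.2 ?_)
      rw [Subgroup.mem_subgroupOf]
      simpa [mul_assoc] using hab'
    · obtain ⟨x, rfl⟩ := QuotientGroup.mk_surjective x
      have hl' : (x⁻¹ • V₀).LiesOverPrime l := Places.liesOverPrime_smul _ _ hV₀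
      obtain ⟨W, hW, h, hh, hWV⟩ := hall _ hl'
      have hWl : W ∈ Rl := (hRl W).2 ⟨hW, by
        rw [show W = h⁻¹ • x⁻¹ • V₀ by rw [← hWV, inv_smul_smul]]
        exact Places.liesOverPrime_smul _ _ hl'⟩
      have hd : ((g ⟨W, hWl⟩)⁻¹ * x * h) • W = W := by
        rw [mul_smul, mul_smul, hWV, smul_inv_smul, inv_smul_eq_iff, hg]
      refine ⟨⟨⟨W, hWl⟩, QuotientGroup.mk ⟨_, hd⟩⟩, QuotientGroup.eq.2 ?_⟩
      show (g ⟨W, hWl⟩ * ((g ⟨W, hWl⟩)⁻¹ * x * h))⁻¹ * x ∈ galOf L
      rw [show (g ⟨W, hWl⟩ * ((g ⟨W, hWl⟩)⁻¹ * x * h))⁻¹ * x = h⁻¹ by group]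
      exact inv_mem hh
  have hfin : ∀ V, Finite (D V) := fun V =>
    Finite.of_injective (fun d : D V => F ⟨V, d⟩) fun a b hab =>
      eq_of_heq (Sigma.mk.inj_iff.1 (hF.1 hab)).2
  have hcard := Nat.card_eq_of_bijective F hF
  rw [Nat.card_sigma] at hcard
  rw [← index_eq_finrank L, Subgroup.index, ← hcard, ← Finset.sum_coe_sort Rl]
  rfl

end FLTAgent.Lowering.P1.Hasse
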