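import Fermat.Agent.Lowering.P1.Brauer.Hasse.Auxiliary
import Fermat.Agent.Lowering.P1.Brauer.Hasse.Degree
import Fermat.Agent.Reducible.Cyclotomic

/-!
# Local norms everywhere are global norms among the units away from `R`
-/

set_option autoImplicit false
set_option linter.style.haveILetI false
set_option linter.unusedSectionVars false

noncomputable section

open scoped Pointwise Classical

namespace FLTAgent.Lowering.P1.Hasse

local notation "LL" => AlgebraicClosure ℚ
local notation "GG" => (AlgebraicClosure ℚ ≃ₐ[ℚ] AlgebraicClosure ℚ)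
local notation "VS" => ValuationSubring (AlgebraicClosure ℚ)

open Loc (SameOrbit fieldUnits intUnits bd nm coe_bd coe_nm mem_fieldUnits)

local instance (priority := 2000) algSubL (F : IntermediateField ℚ (AlgebraicClosure ℚ)) :
    Algebra ℚ F := F.algebra'

/-- The local norms inside the local field. -/
def locNorms (p : ℕ) (L K : IntermediateField ℚ LL) (V : VS) : Subgroup LLˣ where
  carrier := {u | (u : LL) ∈ localField L V ∧ IsNormOn p L K (V.decompositionSubgroup ℚ) (u : LL)}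
  one_mem' := ⟨one_mem _, 1, one_ne_zero, fun σ _ => map_one _, fun σ _ _ =>
    Finset.prod_eq_one fun i _ => map_one _⟩
  mul_mem' := by
    rintro a b ⟨ha, y, hy0, hy, hya⟩ ⟨hb, z, hz0, hz, hzb⟩
    refine ⟨mul_mem ha hb, y * z, mul_ne_zero hy0 hz0,
      fun σ hσ => by rw [map_mul, hy σ hσ, hz σ hσ], fun σ hσ hσK => ?_⟩
    rw [Finset.prod_congr rfl fun i _ => map_mul (σ ^ i) y z, Finset.prod_mul_distrib,
      hya σ hσ hσK, hzb σ hσ hσK]
    rfl
  inv_mem' := by
    rintro a ⟨ha, y, hy0, hy, hya⟩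
    refine ⟨by rw [Units.val_inv_eq_inv_val]; exact inv_mem ha, y⁻¹, inv_ne_zero hy0,
      fun σ hσ => by rw [map_inv₀, hy σ hσ], fun σ hσ hσK => ?_⟩
    rw [Finset.prod_congr rfl fun i _ => map_inv₀ (σ ^ i) y, Finset.prod_inv_distrib,
      hya σ hσ hσK, Units.val_inv_eq_inv_val]

theorem locNorms_le {p : ℕ} {L K : IntermediateField ℚ LL} {V : VS} :
    locNorms p L K V ≤ fieldUnits L V := fun _ hu => hu.1

theorem pow_mem_locNorms {p : ℕ} {L K : IntermediateField ℚ LL} (hLK : L ≤ K) {V : VS} {u : LLˣ}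
    (hu : u ∈ fieldUnits L V) : u ^ p ∈ locNorms p L K V := by
  refine ⟨by rw [Units.val_pow_eq_pow_val]; exact pow_mem hu p, (u : LL), u.ne_zero, fun σ hσ =>
    Loc.mem_localField.1 hu σ ⟨IntermediateField.fixingSubgroup_antitone hLK hσ.1, hσ.2⟩,
    fun σ hσ _ => ?_⟩
  rw [Finset.prod_congr rfl fun i _ => Loc.mem_localField.1 hu _ (pow_mem hσ i), Finset.prod_const,
    Finset.card_range, Units.val_pow_eq_pow_val]

theorem prime_dvd_relIndex {G : Type*} [CommGroup G] {p : ℕ} (hp : p.Prime) {X N : Subgroup G}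
    {x : G} (hx : x ∈ X) (hxN : x ∉ N) (hxp : x ^ p ∈ N) : p ∣ N.relIndex X := by
  haveI : Fact p.Prime := ⟨hp⟩
  have h : orderOf (QuotientGroup.mk ⟨x, hx⟩ : ↥X ⧸ N.subgroupOf X) = p := by
    refine orderOf_eq_prime ?_ ?_
    · rw [← QuotientGroup.mk_pow, QuotientGroup.eq_one_iff, Subgroup.mem_subgroupOf]
      exact hxp
    · intro e
      exact hxN (Subgroup.mem_subgroupOf.1 ((QuotientGroup.eq_one_iff _).1 e))
  exact h ▸ orderOf_dvd_natCard _

/-- Independent conditions. -/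
theorem pow_dvd_relIndex {G ι : Type*} [CommGroup G] {p : ℕ} (hp : p.Prime) (B : Subgroup G)
    (N : ι → Subgroup G) (T : Finset ι)
    (h : ∀ i ∈ T, ∃ b ∈ B, b ∉ N i ∧ b ^ p ∈ N i ∧ ∀ j ∈ T, j ≠ i → b ∈ N j) :
    p ^ T.card ∣ (B ⊓ T.inf N).relIndex B := by
  induction T using Finset.induction with
  | empty => simp
  | insert a T ha ih =>
    obtain ⟨b, hb, hbn, hbp, hboth⟩ := h a (Finset.mem_insert_self a T)
    have hih := ih fun i hi => by
      obtain ⟨c, hc, hcn, hcp, hco⟩ := h i (Finset.mem_insert_of_mem hi)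
      exact ⟨c, hc, hcn, hcp, fun j hj => hco j (Finset.mem_insert_of_mem hj)⟩
    have hbX : b ∈ B ⊓ T.inf N := ⟨hb, (Finset.le_inf (a := Subgroup.zpowers b) fun j hj => by
      rw [Subgroup.zpowers_le]
      exact hboth j (Finset.mem_insert_of_mem hj) fun e => ha (e ▸ hj)) (Subgroup.mem_zpowers b)⟩
    rw [Finset.card_insert_of_notMem ha, Finset.inf_insert, inf_comm (N a), ← inf_assoc,
      ← Subgroup.relIndex_mul_relIndex (B ⊓ T.inf N ⊓ N a) (B ⊓ T.inf N) B inf_le_left inf_le_left,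
      pow_succ', Subgroup.inf_relIndex_left]
    exact mul_dvd_mul (prime_dvd_relIndex hp hbX hbn hbp) hih

/-- The index of finitely many conditions. -/
theorem relIndex_inf_le {G ι : Type*} [CommGroup G] (X : Subgroup G) (M P : ι → Subgroup G)
    (T : Finset ι) (hX : ∀ i ∈ T, X ≤ M i) (hne : ∀ i ∈ T, (P i).relIndex (M i) ≠ 0) :
    (X ⊓ T.inf P).relIndex X ≤ ∏ i ∈ T, (P i).relIndex (M i) := by
  induction T using Finset.induction with
  | empty => simp
  | insert a T ha ih =>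
    rw [Finset.prod_insert ha, Finset.inf_insert, inf_comm (P a), ← inf_assoc,
      ← Subgroup.relIndex_mul_relIndex (X ⊓ T.inf P ⊓ P a) (X ⊓ T.inf P) X inf_le_left inf_le_left,
      Subgroup.inf_relIndex_left]
    exact Nat.mul_le_mul (Subgroup.relIndex_le_of_le_right
      (inf_le_left.trans (hX a (Finset.mem_insert_self a T))) (hne a (Finset.mem_insert_self a T)))
      (ih (fun i hi => hX i (Finset.mem_insert_of_mem hi))
        fun i hi => hne i (Finset.mem_insert_of_mem hi))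

variable {p : ℕ} [hp : Fact p.Prime] {L K : IntermediateField ℚ LL} {σ : GG}

/-- A global norm is a local norm. -/
theorem nm_mem_locNorms (h : GCyc p L K σ) {u : LLˣ} (hu : (u : LL) ∈ K) (V : VS) :
    nm σ p u ∈ locNorms p L K V := by
  have hu' := mem_fieldUnits_top.2 hu
  obtain ⟨y, hy0, hy, hprod⟩ := h.isNormOn hu'
  exact ⟨Loc.le_localField L V (mem_fieldUnits_top.1 (h.nm_mem hu')), y, hy0,
    fun τ hτ => hy τ ⟨hτ.1, mem_dec_top τ⟩, fun τ hτ hτK => hprod τ ⟨hτ.1, mem_dec_top τ⟩ hτK⟩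

/-- A Kummer extension. -/
theorem exists_kummer (hζ : ∃ ζ ∈ L, IsPrimitiveRoot ζ p) [FiniteDimensional ℚ L] {y : LL}
    (hyL : y ^ p ∈ L) (hy : y ∉ L) :
    ∃ (K' : IntermediateField ℚ LL) (g : GG), FiniteDimensional ℚ K' ∧ GCyc p L K' g ∧
      ∀ τ ∈ galOf L, (τ ∈ galOf K' ↔ τ y = y) := by
  haveI : FiniteDimensional ℚ (IntermediateField.adjoin ℚ ({y} : Set LL)) :=
    IntermediateField.adjoin.finiteDimensional (Brauer.integral_coe y)
  set K' := L ⊔ IntermediateField.adjoin ℚ ({y} : Set LL) with hK'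
  have hiff : ∀ τ ∈ galOf L, (τ ∈ galOf K' ↔ τ y = y) := fun τ hτ => by
    refine ⟨fun hh => (IntermediateField.mem_fixingSubgroup_iff _ _).1 hh _
      (le_sup_right (α := IntermediateField ℚ LL) (IntermediateField.mem_adjoin_simple_self ℚ y)),
      fun hh => ?_⟩
    rw [galOf, hK', IntermediateField.fixingSubgroup_sup]
    refine ⟨hτ, (IntermediateField.mem_fixingSubgroup_iff _ _).2 fun x hx => ?_⟩
    induction hx using IntermediateField.adjoin_induction with
    | mem x hx => rw [Set.mem_singleton_iff.1 hx, hh]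
    | algebraMap r => exact τ.commutes r
    | add a b _ _ ha hb => rw [map_add, ha, hb]
    | inv a _ ha => rw [map_inv₀, ha]
    | mul a b _ _ ha hb => rw [map_mul, ha, hb]
  have hy0 : y ≠ 0 := fun e => hy (e ▸ zero_mem L)
  have hroot : ∀ τ : galOf L, ((τ : GG) y / y) ^ p = 1 := fun τ => by
    rw [div_pow, ← map_pow, (IntermediateField.mem_fixingSubgroup_iff _ _).1 τ.2 _ hyL,
      div_self (pow_ne_zero p hy0)]
  have hfix : ∀ τ₁ τ₂ : galOf L, (τ₁ : GG) ((τ₂ : GG) y / y) = (τ₂ : GG) y / y := fun τ₁ τ₂ =>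
    (IntermediateField.mem_fixingSubgroup_iff _ _).1 τ₁.2 _ (mem_of_pow_eq_one hζ (hroot τ₂))
  have hne : ∀ τ : galOf L, (τ : GG) y / y ≠ 0 := fun τ e => by
    have := hroot τ
    rw [e, zero_pow hp.out.ne_zero] at this
    exact zero_ne_one this
  let χ : ↥(galOf L) →* LLˣ :=
    { toFun := fun τ => Units.mk0 ((τ : GG) y / y) (hne τ)
      map_one' := Units.ext (div_self hy0)
      map_mul' := fun τ₁ τ₂ => Units.ext (by
        show (τ₁ : GG) ((τ₂ : GG) y) / y = (τ₁ : GG) y / y * ((τ₂ : GG) y / y)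
        conv_lhs => rw [show (τ₂ : GG) y = ((τ₂ : GG) y / y) * y from (div_mul_cancel₀ _ hy0).symm,
          map_mul, hfix τ₁ τ₂]
        ring) }
  have hker : (galOf K').subgroupOf (galOf L) = χ.ker := by
    ext τ
    rw [Subgroup.mem_subgroupOf, hiff τ τ.2, MonoidHom.mem_ker, Units.ext_iff]
    exact ⟨fun e => by show (τ : GG) y / y = 1; rw [e, div_self hy0],
      fun e => (div_eq_one_iff_eq hy0).1 e⟩
  obtain ⟨g, hg, hgy⟩ : ∃ g ∈ galOf L, g y ≠ y := by
    by_contra hall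
    push Not at hall
    exact hy (Brauer.mem_of_galOf_fixed hall)
  refine ⟨K', g, inferInstance, ⟨le_sup_left, fun a ha τ hτ => ?_, ?_, ⟨hg, mem_dec_top g⟩,
    fun hh => hgy ((hiff g hg).1 hh)⟩, hiff⟩
  · have hτL : τ ∈ galOf L := IntermediateField.fixingSubgroup_antitone le_sup_left hτ
    have hn : ((galOf K').subgroupOf (galOf L)).Normal := hker ▸ inferInstance
    exact hn.conj_mem ⟨τ, hτL⟩ hτ ⟨a, ha⟩
  · rw [Subgroup.relIndex, hker, Subgroup.index_ker]
    obtain ⟨ζ, -, hζ⟩ := hζ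
    haveI : NeZero p := ⟨hp.out.ne_zero⟩
    have hle : χ.range ≤ rootsOfUnity p LL := by
      rintro _ ⟨τ, rfl⟩
      exact (mem_rootsOfUnity p _).2 (Units.ext (by simpa [χ] using hroot τ))
    have hd : Nat.card χ.range ∣ p := (Subgroup.card_dvd_of_le hle).trans (dvd_of_eq hζ.card_rootsOfUnity)
    refine ((Nat.dvd_prime hp.out).1 hd).resolve_left fun h1 => hgy ?_
    have h2 : χ ⟨g, hg⟩ = 1 := by
      have := Subgroup.card_eq_one.1 h1
      exact Subgroup.mem_bot.1 (this ▸ ⟨_, rfl⟩)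
    exact (div_eq_one_iff_eq hy0).1 (congrArg Units.val h2)

/-- An inertia element fixes the roots of units at places away from `p`. -/
theorem inertia_fix {l : ℕ} (hl : l.Prime) (hlp : l ≠ p) {V : VS} (hV : V.LiesOverPrime l)
    {y : LL} (hy : V.valuation y = 1) {τ : GG} (hτ : τ ∈ V.inertiaSubgroupIn ℚ)
    (hfix : τ (y ^ p) = y ^ p) : τ y = y := by
  have hy0 : y ≠ 0 := fun e => by simp [e] at hy
  obtain ⟨-, hn⟩ := (Places.mem_inertia_iff V).1 hτ
  have h1 := V.mem_nonunits_iff.1 (hn y ((V.valuation_le_one_iff y).1 hy.le))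
  refine (div_eq_one_iff_eq hy0).1 (Reducible.eq_one_of_sub_one_mem_nonunits (p := p) (V := V)
    (by rw [div_pow, ← map_pow, hfix, div_self (pow_ne_zero p hy0)])
    (Reducible.natCast_notMem_nonunits hl hV fun hd =>
      hlp ((Nat.prime_dvd_prime_iff_eq hl hp.out).1 hd)) ?_)
  rw [V.mem_nonunits_iff, show τ y / y - 1 = (τ y - y) / y by field_simp, map_div₀, hy, div_one]
  exact h1

/-- The local norms have index divisible by `p` at a place which does not split. -/
theorem exists_not_norm (hidx : LocalIndex) (h : GCyc p L K σ) [FiniteDimensional ℚ L]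
    [FiniteDimensional ℚ K] (hζ : ∃ ζ ∈ L, IsPrimitiveRoot ζ p) {l : ℕ} (hl : l.Prime) {V : VS}
    (hV : V.LiesOverPrime l) (hns : ¬ galOf L ⊓ V.decompositionSubgroup ℚ ≤ galOf K) :
    ∃ b₀ : LLˣ, (b₀ : LL) ∈ L ∧ b₀ ∉ locNorms p L K V := by
  obtain ⟨b, hbL, hb0, hb, -⟩ :=
    hidx p L K inferInstance inferInstance h.le hζ h.conj h.index l V hl hV hns
  exact ⟨Units.mk0 b hb0, hbL, fun hh => hb hh.2⟩

/-- A unit away from `R ∪ T` which is a power at all places of `R` is a power. -/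
theorem mem_pow_of_local (hidx : LocalIndex) (hp2 : 2 < p) (hζ : ∃ ζ ∈ L, IsPrimitiveRoot ζ p)
    [FiniteDimensional ℚ L] {R T : Finset VS} (hQ : IsPlaces L (R ∪ T)) (hgen : Gen L R)
    (hpR : ∀ V : VS, V.LiesOverPrime p → InOrbit (galOf L) R V)
    (hT : ∀ V ∈ T, ¬ InOrbit (galOf L) R V)
    (hsurj : ∀ c : VS → LLˣ, (∀ V ∈ T, c V ∈ intUnits L V) →
      ∃ a ∈ unitsAway L L R, ∀ V ∈ T, a / c V ∈ (intUnits L V).map (powP LLˣ p))
    {x : LLˣ} (hx : x ∈ unitsAway L L (R ∪ T))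
    (hloc : ∀ V ∈ R, x ∈ (fieldUnits L V).map (powP LLˣ p)) :
    x ∈ (unitsAway L L (R ∪ T)).map (powP LLˣ p) := by
  obtain ⟨y, hyx⟩ := IsAlgClosed.exists_pow_nat_eq (x : LL) hp.out.pos
  have hy0 : y ≠ 0 := fun e => x.ne_zero (by rw [← hyx, e, zero_pow hp.out.ne_zero])
  have hval : ∀ (l : ℕ) (V : VS), l.Prime → V.LiesOverPrime l → ¬ InOrbit (galOf L) (R ∪ T) V →
      V.valuation y = 1 := fun l V hl hV hn => by
    have h1 := hx.2 l V hl hV hn
    rw [← hyx, map_pow] at h1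
    exact (pow_eq_one_iff_left hp.out.ne_zero).1 h1
  by_cases hyL : y ∈ L
  · exact ⟨Units.mk0 y hy0, ⟨hyL, hval⟩, Units.ext (by simpa using hyx)⟩
  exfalso
  obtain ⟨K', g, hK'fd, hc, hiff⟩ := exists_kummer hζ (by rw [hyx]; exact hx.1) hyL
  haveI := hK'fd
  have hur : Unram L K' (R ∪ T) := fun l V hl hV hn τ hτ hin => by
    refine (hiff τ hτ).2 (inertia_fix (p := p) hl (fun e => hn ?_) hV (hval l V hl hV hn) hin ?_)
    · obtain ⟨W, hW, hWV⟩ := hpR V (e ▸ hV)
      exact ⟨W, Finset.mem_union_left _ hW, hWV⟩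
    · rw [hyx]
      exact (IntermediateField.mem_fixingSubgroup_iff _ _).1 hτ _ hx.1
  set T' := T.filter fun V => ¬ galOf L ⊓ V.decompositionSubgroup ℚ ≤ galOf K' with hT'
  have hns : ∀ V, V ∈ T' ↔ V ∈ R ∪ T ∧ ¬ galOf L ⊓ V.decompositionSubgroup ℚ ≤ galOf K' := by
    intro V
    rw [hT', Finset.mem_filter, Finset.mem_union]
    refine ⟨fun hh => ⟨Or.inr hh.1, hh.2⟩, fun hh => ⟨hh.1.resolve_left fun hVR => hh.2 ?_, hh.2⟩⟩
    intro τ hτ
    obtain ⟨z, hz, hzx⟩ := hloc V hVR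
    have h1 : (y / (z : LL)) ^ p = 1 := by
      rw [div_pow, hyx, ← hzx]
      exact div_self (by simp)
    refine (hiff τ hτ.1).2 ?_
    rw [← div_mul_cancel₀ y z.ne_zero, map_mul, (IntermediateField.mem_fixingSubgroup_iff _ _).1
      hτ.1 _ (mem_of_pow_eq_one hζ h1), Loc.mem_localField.1 hz τ hτ]
  set Q := R ∪ T with hQdef
  have hle := index_norm_le hc hp2 hζ hQ (hgen.mono Finset.subset_union_left) hur hns
  set I := ((unitsAway K' L Q).map (nm g p)).relIndex (unitsAway L L Q) with hI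
  have hI0 : I ≠ 0 := by
    intro e
    have h1 : ((unitsAway L L Q).map (powP LLˣ p)).relIndex (unitsAway L L Q) ≠ 0 := by
      rw [relIndex_pow_unitsAway hp2 hζ hQ]
      exact pow_ne_zero _ hp.out.ne_zero
    refine h1 (zero_dvd_iff.1 (e ▸ Subgroup.relIndex_dvd_of_le_left _ ?_))
    rintro _ ⟨u, hu, rfl⟩
    exact ⟨u, unitsAway_le_of_le hc.le hu, hc.nm_of_mem_base (mem_fieldUnits_top.2 hu.1)⟩
  -- independent elements
  have hind : ∀ V ∈ T', ∃ b ∈ unitsAway L L Q, b ∉ locNorms p L K' V ∧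
      b ^ p ∈ locNorms p L K' V ∧ ∀ W ∈ T', W ≠ V → b ∈ locNorms p L K' W := by
    intro V hV
    obtain ⟨hVT, hVns⟩ := Finset.mem_filter.1 hV
    obtain ⟨l, hl, hVl⟩ := hQ.lies V (Finset.mem_union_right _ hVT)
    obtain ⟨b₀, hb₀L, hb₀⟩ := exists_not_norm hidx hc hζ hl hVl hVns
    obtain ⟨a, haL, ha0, hau, haone⟩ := hgen l V hl hVl (hT V hVT)
    obtain ⟨k, hk⟩ := hau _ (Loc.le_localField L V hb₀L) b₀.ne_zero
    set ak : LLˣ := Units.mk0 a ha0 ^ k with hak
    have hakL : (ak : LL) ∈ L := by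
      rw [hak, Units.val_zpow_eq_zpow_val, Units.val_mk0]
      exact zpow_mem haL k
    have hakone : ∀ (q : ℕ) (W : VS), q.Prime → W.LiesOverPrime q → ¬ InOrbit (galOf L) R W →
        ¬ SameOrbit (galOf L) V W → W.valuation (ak : LL) = 1 := fun q W hq hW hn hne => by
      rw [hak, Units.val_zpow_eq_zpow_val, Units.val_mk0, map_zpow₀, haone q W hq hW hn hne,
        one_zpow]
    have hnotsame : ∀ W ∈ T, W ≠ V → ¬ SameOrbit (galOf L) V W := fun W hW hne hs =>
      hne (hQ.inj V (Finset.mem_union_right _ hVT) W (Finset.mem_union_right _ hW) hs).symm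
    let c : VS → LLˣ := fun W => if W = V then b₀ / ak else ak⁻¹
    obtain ⟨u, hu, huT⟩ := hsurj c fun W hW => by
      by_cases e : W = V
      · simp only [c, if_pos e]
        subst e
        refine ⟨?_, ?_⟩
        · rw [Units.val_div_eq_div_val]
          exact div_mem (Loc.le_localField L _ hb₀L) (Loc.le_localField L _ hakL)
        · rw [Units.val_div_eq_div_val, map_div₀, hk, hak, Units.val_zpow_eq_zpow_val,
            Units.val_mk0, map_zpow₀]
          exact div_self (zpow_ne_zero k ((Valuation.ne_zero_iff _).2 ha0))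
      · simp only [c, if_neg e]
        obtain ⟨q, hq, hWq⟩ := hQ.lies W (Finset.mem_union_right _ hW)
        exact inv_mem (s := intUnits L W) ⟨Loc.le_localField L W hakL,
          hakone q W hq hWq (hT W hW) (hnotsame W hW e)⟩
    refine ⟨u * ak, ⟨?_, fun q W hq hW hn => ?_⟩, fun hh => hb₀ ?_, pow_mem_locNorms hc.le ?_,
      fun W hW hne => ?_⟩
    · rw [Units.val_mul]
      exact mul_mem hu.1 hakL
    · have hnR : ¬ InOrbit (galOf L) R W := fun ⟨U, hU, e⟩ => hn ⟨U, Finset.mem_union_left _ hU, e⟩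
      rw [Units.val_mul, map_mul, hu.2 q W hq hW hnR, hakone q W hq hW hnR fun hs =>
        hn ⟨V, Finset.mem_union_right _ hVT, hs⟩, mul_one]
    · obtain ⟨w, hw, hwe⟩ := huT V hVT
      simp only [c, if_pos] at hwe
      have e : b₀ = u * ak / w ^ p := by
        rw [show w ^ p = u / (b₀ / ak) from hwe, div_div_eq_mul_div u b₀ ak, div_div_cancel]
      rw [e]
      exact div_mem hh (pow_mem_locNorms hc.le hw.1)
    · exact Loc.le_localField L V (by rw [Units.val_mul]; exact mul_mem hu.1 hakL)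
    · obtain ⟨hWT, -⟩ := Finset.mem_filter.1 hW
      obtain ⟨w, hw, hwe⟩ := huT W hWT
      simp only [c, if_neg hne, div_inv_eq_mul] at hwe
      rw [← hwe]
      exact pow_mem_locNorms hc.le hw.1
  have hdvd : p ^ T'.card ∣ I := by
    refine (pow_dvd_relIndex hp.out _ _ T' hind).trans (Subgroup.relIndex_dvd_of_le_left _ ?_)
    rintro _ ⟨u, hu, rfl⟩
    exact ⟨nm_mem_unitsAway hc hu, (Finset.le_inf (a := Subgroup.zpowers (nm g p u)) fun W _ => by
      rw [Subgroup.zpowers_le]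
      exact nm_mem_locNorms hc hu.1 W) (Subgroup.mem_zpowers _)⟩
  have h1 := Nat.le_of_dvd (Nat.pos_of_ne_zero hI0) hdvd
  have h2 : p * p ^ T'.card ≤ p ^ T'.card := (Nat.mul_le_mul_left p h1).trans hle
  have h3 := pow_pos hp.out.pos T'.card
  nlinarith [hp.out.two_le]

/-- **Local norms everywhere are global norms.** -/
theorem mem_norms (hidx : LocalIndex) (h : GCyc p L K σ) [FiniteDimensional ℚ L]
    [FiniteDimensional ℚ K] (hp2 : 2 < p) (hζ : ∃ ζ ∈ L, IsPrimitiveRoot ζ p) {R : Finset VS}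
    (hR : IsPlaces L R) (hgen : Gen L R) (hur : Unram L K R)
    (hpR : ∀ V : VS, V.LiesOverPrime p → InOrbit (galOf L) R V) {b : LLˣ}
    (hb : b ∈ unitsAway L L R) (hnorm : ∀ V ∈ R, b ∈ locNorms p L K V) :
    ∃ w : LLˣ, (w : LL) ∈ K ∧ nm σ p w = b := by
  obtain ⟨hr2, hr1⟩ := two_mul_half hp2 hζ
  set r := Module.finrank ℚ L / 2 with hr
  obtain ⟨T, hTc, hQ, hTp, hsurj⟩ :=
    exists_aux σ h hp2 hζ hR hpR (r + R.card - 1) (by omega)
  set Q := R ∪ T with hQdef
  set B := unitsAway L L Q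
  have hdisj : Disjoint R T :=
    Finset.disjoint_left.2 fun V hVR hVT => (hTp V hVT).1 (inOrbit_of_mem hVR)
  let Rn := R.filter fun V => ¬ galOf L ⊓ V.decompositionSubgroup ℚ ≤ galOf K
  have hRn : ∀ V, V ∈ Rn ↔ V ∈ Q ∧ ¬ galOf L ⊓ V.decompositionSubgroup ℚ ≤ galOf K := fun V => by
    simp only [Rn, Finset.mem_filter, hQdef, Finset.mem_union]
    exact ⟨fun hh => ⟨Or.inl hh.1, hh.2⟩,
      fun hh => ⟨hh.1.resolve_right fun hVT => hh.2 (hTp V hVT).2, hh.2⟩⟩
  have hur' : Unram L K Q := fun l V hl hV hn =>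
    hur l V hl hV fun ⟨W, hW, e⟩ => hn ⟨W, Finset.mem_union_left _ hW, e⟩
  have hle := index_norm_le h hp2 hζ hQ (hgen.mono Finset.subset_union_left) hur' hRn
  set N₀ := (unitsAway K L Q).map (nm σ p)
  let F : VS → Subgroup LLˣ := fun V => fieldUnits L V
  let P : VS → Subgroup LLˣ := fun V => (fieldUnits L V).map (powP LLˣ p)
  let M : VS → Subgroup LLˣ := fun V => if V ∈ Rn then locNorms p L K V else F V
  set X := B ⊓ R.inf M
  have hXM : ∀ V ∈ R, X ≤ M V := fun V hV => inf_le_right.trans (Finset.inf_le hV)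
  -- the powers are detected in `R`
  have hXP : X ⊓ R.inf P ≤ B.map (powP LLˣ p) := fun x hx =>
    mem_pow_of_local hidx hp2 hζ hQ hgen hpR (fun V hV => (hTp V hV).1) hsurj hx.1.1
      fun V hV => (Finset.inf_le hV : R.inf P ≤ P V) hx.2
  -- the local indices
  let e : VS → ℕ := fun V => if V.LiesOverPrime p then (galOf L).relIndex (V.decompositionSubgroup ℚ) else 0
  have hFP : ∀ V ∈ R, (P V).relIndex (F V) = p ^ (2 + e V) := fun V hV => by
    obtain ⟨l, hl, hVl⟩ := hR.lies V hV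
    rw [Loc.relIndex_pow_fieldUnits hl hVl p L hζ]
    congr 2
    simp only [e]
    by_cases hlp : l = p
    · rw [if_pos hlp, if_pos (hlp ▸ hVl)]
    · rw [if_neg hlp, if_neg fun hh => hlp (prime_unique hl hp.out hVl hh)]
  have hMP : ∀ V ∈ R, (P V).relIndex (M V) ≠ 0 ∧
      (P V).relIndex (M V) * p ^ (if V ∈ Rn then 1 else 0) ≤ p ^ (2 + e V) := by
    intro V hV
    have hne : p ^ (2 + e V) ≠ 0 := pow_ne_zero _ hp.out.ne_zero
    by_cases hn : V ∈ Rn
    swap
    · simp only [M, if_neg hn, pow_zero, mul_one, hFP V hV]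
      exact ⟨hne, le_rfl⟩
    simp only [M, if_pos hn, pow_one]
    obtain ⟨l, hl, hVl⟩ := hR.lies V hV
    obtain ⟨b₀, hb₀, hb₀n⟩ := exists_not_norm hidx h hζ hl hVl ((hRn V).1 hn).2
    have h1 : (P V).relIndex (locNorms p L K V) * (locNorms p L K V).relIndex (F V) =
        p ^ (2 + e V) := by
      rw [← hFP V hV]
      refine Subgroup.relIndex_mul_relIndex _ _ _ ?_ locNorms_le
      rintro _ ⟨u, hu, rfl⟩
      exact pow_mem_locNorms h.le hu
    have h2 : p ∣ (locNorms p L K V).relIndex (F V) :=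
      prime_dvd_relIndex hp.out (x := b₀) (Loc.le_localField L V hb₀) hb₀n
        (pow_mem_locNorms h.le (Loc.le_localField L V hb₀))
    refine ⟨left_ne_zero_of_mul (h1 ▸ hne), ?_⟩
    exact h1 ▸ Nat.mul_le_mul_left _
      (Nat.le_of_dvd (Nat.pos_of_ne_zero (right_ne_zero_of_mul (h1 ▸ hne))) h2)
  have hprod : (∏ V ∈ R, (P V).relIndex (M V)) * p ^ Rn.card ≤ p ^ (2 * (r + R.card)) := by
    have hsum : ∑ V ∈ R, (2 + e V) = 2 * (r + R.card) := by
      rw [Finset.sum_add_distrib, Finset.sum_const, smul_eq_mul, ← Finset.sum_filter,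
        sum_local_degree L hR hp.out hpR fun V => Finset.mem_filter, ← hr2]
      ring
    have hcard : ∑ V ∈ R, (if V ∈ Rn then 1 else 0) = Rn.card := by
      rw [← Finset.sum_filter, ← Finset.card_eq_sum_ones]
      congr 1
      ext V
      simp only [Finset.mem_filter]
      exact ⟨fun hh => hh.2, fun hh => ⟨(Finset.mem_filter.1 hh).1, hh⟩⟩
    rw [← hcard, ← hsum, ← Finset.prod_pow_eq_pow_sum, ← Finset.prod_pow_eq_pow_sum,
      ← Finset.prod_mul_distrib]
    exact Finset.prod_le_prod' fun V hV => (hMP V hV).2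
  -- the counting
  have hB : (B.map (powP LLˣ p)).relIndex B = p ^ (2 * (r + R.card) - 1) := by
    rw [relIndex_pow_unitsAway hp2 hζ hQ, hQdef, Finset.card_union_of_disjoint hdisj, hTc]
    congr 1
    omega
  have hNX : N₀ ≤ X := by
    rintro _ ⟨u, hu, rfl⟩
    refine ⟨nm_mem_unitsAway h hu, (Finset.le_inf (a := Subgroup.zpowers (nm σ p u)) fun V _ => by
      rw [Subgroup.zpowers_le]
      simp only [M]
      split_ifs
      · exact nm_mem_locNorms h hu.1 V
      · exact locNorms_le (nm_mem_locNorms h hu.1 V)) (Subgroup.mem_zpowers _)⟩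
  have hBne : (B.map (powP LLˣ p)).relIndex B ≠ 0 := hB ▸ pow_ne_zero _ hp.out.ne_zero
  have hBX : B.map (powP LLˣ p) ≤ X ⊓ R.inf P := by
    rintro _ ⟨u, hu, rfl⟩
    refine ⟨hNX ⟨u, unitsAway_le_of_le h.le hu, h.nm_of_mem_base (mem_fieldUnits_top.2 hu.1)⟩,
      (Finset.le_inf (a := Subgroup.zpowers (powP LLˣ p u)) fun V _ => ?_) (Subgroup.mem_zpowers _)⟩
    rw [Subgroup.zpowers_le]
    exact ⟨u, Loc.le_localField L V hu.1, rfl⟩
  have hA : (B.map (powP LLˣ p)).relIndex B ≤ (X ⊓ R.inf P).relIndex X * X.relIndex B := by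
    rw [Subgroup.relIndex_mul_relIndex (X ⊓ R.inf P) X B inf_le_left inf_le_left,
      le_antisymm hBX hXP]
  have hA' := hA.trans (Nat.mul_le_mul_right _
    (relIndex_inf_le X M P R hXM fun V hV => (hMP V hV).1))
  rw [hB] at hA'
  have hI : N₀.relIndex X * X.relIndex B = N₀.relIndex B :=
    Subgroup.relIndex_mul_relIndex _ _ _ hNX inf_le_left
  have hN0 : N₀.relIndex B ≠ 0 := by
    intro e
    refine hBne (zero_dvd_iff.1 (e ▸ Subgroup.relIndex_dvd_of_le_left B ?_))
    rintro _ ⟨u, hu, rfl⟩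
    exact ⟨u, unitsAway_le_of_le h.le hu, h.nm_of_mem_base (mem_fieldUnits_top.2 hu.1)⟩
  -- equality
  have hone : N₀.relIndex X = 1 := by
    have hpos : 0 < X.relIndex B := Nat.pos_of_ne_zero (right_ne_zero_of_mul (hI ▸ hN0))
    set u := 2 * (r + R.card) with hu
    have h1 : p ^ (u - 1) * p ^ Rn.card ≤ p ^ u * X.relIndex B := by
      calc p ^ (u - 1) * p ^ Rn.card
          ≤ (∏ V ∈ R, (P V).relIndex (M V)) * X.relIndex B * p ^ Rn.card :=
            Nat.mul_le_mul_right _ hA'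
        _ = (∏ V ∈ R, (P V).relIndex (M V)) * p ^ Rn.card * X.relIndex B := by ring
        _ ≤ _ := Nat.mul_le_mul_right _ hprod
    rw [show u = u - 1 + 1 by omega, pow_succ, Nat.add_sub_cancel, mul_assoc] at h1
    have h2 : p ^ Rn.card ≤ p * X.relIndex B := Nat.le_of_mul_le_mul_left h1 (pow_pos hp.out.pos _)
    have h3 : N₀.relIndex X * (p * X.relIndex B) ≤ 1 * (p * X.relIndex B) := by
      rw [one_mul]
      calc N₀.relIndex X * (p * X.relIndex B) = p * N₀.relIndex B := by rw [← hI]; ring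
        _ ≤ p ^ Rn.card := hle
        _ ≤ _ := h2
    have h4 := Nat.le_of_mul_le_mul_right h3 (Nat.mul_pos hp.out.pos hpos)
    have h5 : N₀.relIndex X ≠ 0 := left_ne_zero_of_mul (hI ▸ hN0)
    omega
  obtain ⟨w, hw, hwb⟩ := Subgroup.relIndex_eq_one.1 hone
    (show b ∈ X from ⟨unitsAway_mono Finset.subset_union_left hb,
      (Finset.le_inf (a := Subgroup.zpowers b) fun V hV => by
        rw [Subgroup.zpowers_le]
        simp only [M]
        split_ifs
        · exact hnorm V hV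
        · exact Loc.le_localField L V hb.1) (Subgroup.mem_zpowers b)⟩)
  exact ⟨w, hw.1, hwb⟩

end FLTAgent.Lowering.P1.Hasse
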