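import Fermat.Agent.Lowering.P1.Brauer.Hasse.Ranks
import Fermat.Agent.Lowering.P1.Local.UnitNorm

/-!
# Systems of places, and their behaviour in a cyclic extension of prime degree
-/

set_option autoImplicit false
set_option linter.style.haveILetI false
set_option linter.unusedSectionVars false

noncomputable section

open scoped Pointwise

namespace FLTAgent.Lowering.P1.Hasse

local notation "LL" => AlgebraicClosure ℚ
local notation "GG" => (AlgebraicClosure ℚ ≃ₐ[ℚ] AlgebraicClosure ℚ)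
local notation "VS" => ValuationSubring (AlgebraicClosure ℚ)

open Loc (SameOrbit)

local instance (priority := 900) normalLLQ : Normal ℚ LL :=
  normal_iff.2 fun x => ⟨Brauer.integral_coe x, IsAlgClosed.splits _⟩

local instance (priority := 900) isGaloisLLQ : IsGalois ℚ LL where
  to_isSeparable := haveI := AlgebraicClosure.isAlgebraic ℚ; inferInstance

/-- The global situation: `K` over `L` cyclic of degree `p`, generated by `σ`. -/
abbrev GCyc (p : ℕ) (L K : IntermediateField ℚ LL) (σ : GG) : Prop := Loc.Cyc p (⊤ : VS) L K σ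

theorem mem_dec_top (g : GG) : g ∈ (⊤ : VS).decompositionSubgroup ℚ := by
  show g • (⊤ : VS) = ⊤
  refine eq_top_iff.2 fun x _ => ?_
  have h : g ((g⁻¹ : GG) x) = x := g.apply_symm_apply x
  rw [← h]
  exact ValuationSubring.smul_mem_pointwise_smul g _ ⊤ (ValuationSubring.mem_top _)

theorem localField_top (L : IntermediateField ℚ LL) : localField L (⊤ : VS) = L := by
  rw [localField, inf_eq_left.2 fun g _ => mem_dec_top g]
  exact InfiniteGalois.fixedField_fixingSubgroup L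

theorem mem_fieldUnits_top {L : IntermediateField ℚ LL} {u : LLˣ} :
    u ∈ Loc.fieldUnits L (⊤ : VS) ↔ (u : LL) ∈ L := by
  rw [Loc.mem_fieldUnits, localField_top]

theorem index_eq_finrank (L : IntermediateField ℚ LL) [FiniteDimensional ℚ L] :
    (galOf L).index = Module.finrank ℚ L :=
  (IntermediateField.finrank_eq_fixingSubgroup_index (F := ℚ) (E' := LL) L).symm

/-- A place lies over one prime only. -/
theorem prime_unique {V : VS} {l q : ℕ} (hl : l.Prime) (hq : q.Prime) (hV : V.LiesOverPrime l)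
    (hV' : V.LiesOverPrime q) : l = q := by
  by_contra hne
  have h1 := Mazur.valuation_natCast_eq_one V hl hV
    (n := q) (fun hd => hne ((Nat.prime_dvd_prime_iff_eq hl hq).1 hd))
  exact (Mazur.valuation_natCast_lt_one V hV').ne h1

/-- The setoid of conjugacy over `L`. -/
def orbitSetoid (L : IntermediateField ℚ LL) : Setoid VS where
  r := SameOrbit (galOf L)
  iseqv := ⟨sameOrbit_refl _, sameOrbit_symm, sameOrbit_trans⟩

variable (L : IntermediateField ℚ LL) [FiniteDimensional ℚ L]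

/-- Representatives of all places over finitely many primes. -/
theorem exists_places (S : Finset ℕ) (hS : ∀ l ∈ S, l.Prime) :
    ∃ R : Finset VS, IsPlaces L R ∧ (∀ V ∈ R, ∃ l ∈ S, V.LiesOverPrime l) ∧
      ∀ (l : ℕ) (V : VS), l.Prime → V.LiesOverPrime l → (InOrbit (galOf L) R V ↔ l ∈ S) := by
  classical
  haveI := Loc.finiteIndex_galOf L
  haveI : Fintype (GG ⧸ galOf L) := Fintype.ofFinite _
  have hV₀ : ∀ l : S, ∃ V : VS, V.LiesOverPrime (l : ℕ) := fun l =>
    Frobenius.exists_liesOverPrime (l : ℕ) (hS l l.2)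
  choose V₀ hV₀ using hV₀
  letI := orbitSetoid L
  let T : Finset VS := S.attach.biUnion fun l =>
    (Finset.univ : Finset (GG ⧸ galOf L)).image fun x => (Quotient.out x)⁻¹ • V₀ l
  let R : Finset VS := (T.image fun V => (Quotient.mk (orbitSetoid L) V)).image Quotient.out
  have hrep : ∀ V : VS, SameOrbit (galOf L) (Quotient.mk (orbitSetoid L) V).out V := fun V =>
    Quotient.exact (Quotient.out_eq (Quotient.mk (orbitSetoid L) V))
  have hT : ∀ V ∈ T, ∃ l ∈ S, V.LiesOverPrime l := by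
    intro V hV
    simp only [T, Finset.mem_biUnion, Finset.mem_image] at hV
    obtain ⟨l, -, x, -, rfl⟩ := hV
    exact ⟨l, l.2, Places.liesOverPrime_smul _ _ (hV₀ l)⟩
  have hR : ∀ V ∈ R, ∃ U ∈ T, SameOrbit (galOf L) V U ∧ V = (Quotient.mk (orbitSetoid L) U).out := by
    intro V hV
    simp only [R, Finset.mem_image] at hV
    obtain ⟨_, ⟨U, hU, rfl⟩, rfl⟩ := hV
    exact ⟨U, hU, hrep U, rfl⟩
  have hRl : ∀ V ∈ R, ∃ l ∈ S, V.LiesOverPrime l := by
    intro V hV
    obtain ⟨U, hU, ⟨σ, -, hσ⟩, -⟩ := hR V hV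
    obtain ⟨l, hl, hUl⟩ := hT U hU
    refine ⟨l, hl, ?_⟩
    rw [← inv_smul_eq_iff.2 hσ.symm]
    exact Places.liesOverPrime_smul _ _ hUl
  refine ⟨R, ⟨fun V hV => ?_, fun V hV W hW h => ?_⟩, hRl, fun l V hl hV => ⟨?_, fun hlS => ?_⟩⟩
  · obtain ⟨l, hl, hVl⟩ := hRl V hV
    exact ⟨l, hS l hl, hVl⟩
  · obtain ⟨U, -, hVU, rfl⟩ := hR V hV
    obtain ⟨U', -, hWU, rfl⟩ := hR W hW
    rw [Quotient.sound (s := orbitSetoid L)
      (sameOrbit_trans (sameOrbit_trans (sameOrbit_symm hVU) h) hWU)]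
  · rintro ⟨W, hW, σ, -, rfl⟩
    obtain ⟨q, hq, hWq⟩ := hRl W hW
    rwa [prime_unique hl (hS q hq) hV (Places.liesOverPrime_smul _ _ hWq)]
  · obtain ⟨g, hg⟩ := Places.exists_smul_eq hl (hV₀ ⟨l, hlS⟩) hV
    have hmem : (QuotientGroup.mk g⁻¹ : GG ⧸ galOf L).out⁻¹ • V₀ ⟨l, hlS⟩ ∈ T :=
      Finset.mem_biUnion.2 ⟨⟨l, hlS⟩, Finset.mem_attach _ _,
        Finset.mem_image.2 ⟨_, Finset.mem_univ _, rfl⟩⟩
    refine ⟨_, Finset.mem_image.2 ⟨_, Finset.mem_image.2 ⟨_, hmem, rfl⟩, rfl⟩,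
      sameOrbit_trans (hrep _) ?_⟩
    obtain ⟨k, hk⟩ := QuotientGroup.mk_out_eq_mul (galOf L) g⁻¹
    refine ⟨(k : GG), k.2, ?_⟩
    rw [hk, mul_inv_rev, inv_inv, smul_smul, ← mul_assoc, mul_inv_cancel, one_mul, hg]

variable {L} {p : ℕ} [hp : Fact p.Prime] {K : IntermediateField ℚ LL} {σ : GG}

omit [FiniteDimensional ℚ L] in
theorem mem_split_or (h : GCyc p L K σ) (V : VS) :
    galOf L ⊓ V.decompositionSubgroup ℚ ≤ galOf K ∨
      ∃ d, Loc.Cyc p V L K d ∧ GCyc p L K d := by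
  by_cases hs : galOf L ⊓ V.decompositionSubgroup ℚ ≤ galOf K
  · exact Or.inl hs
  · obtain ⟨d, hd, hdK⟩ := SetLike.not_le_iff_exists.1 hs
    exact Or.inr ⟨d, ⟨h.le, h.conj, h.index, hd, hdK⟩,
      ⟨h.le, h.conj, h.index, ⟨hd.1, mem_dec_top d⟩, hdK⟩⟩

/-- The places of `K` over a system of places of `L`. -/
theorem exists_placesAbove (h : GCyc p L K σ) {R : Finset VS} (hR : IsPlaces L R) :
    ∃ R' : Finset VS, IsPlaces K R' ∧
      (∀ V : VS, InOrbit (galOf K) R' V ↔ InOrbit (galOf L) R V) ∧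
      ∀ Rn : Finset VS, (∀ V, V ∈ Rn ↔ V ∈ R ∧ ¬ galOf L ⊓ V.decompositionSubgroup ℚ ≤ galOf K) →
        R'.card = Rn.card + p * (R.card - Rn.card) := by
  classical
  haveI := h.normal
  let Spl : VS → Prop := fun V => galOf L ⊓ V.decompositionSubgroup ℚ ≤ galOf K
  let m : VS → ℕ := fun V => if Spl V then p else 1
  let R' : Finset VS := R.biUnion fun V => (Finset.range (m V)).image fun i => σ ^ i • V
  have hmem : ∀ W, W ∈ R' ↔ ∃ V ∈ R, ∃ i < m V, σ ^ i • V = W := fun W => by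
    simp only [R', Finset.mem_biUnion, Finset.mem_image, Finset.mem_range]
  have hσL : σ ∈ galOf L := h.mem.1
  -- equal orbits
  have hinj : ∀ V ∈ R, ∀ V' ∈ R, ∀ i < m V, ∀ j < m V',
      SameOrbit (galOf K) (σ ^ i • V) (σ ^ j • V') → V = V' ∧ i = j := by
    intro V hV V' hV' i hi j hj ⟨τ, hτ, e⟩
    have hVV' : V = V' := by
      refine hR.inj V hV V' hV' ⟨(σ ^ j)⁻¹ * τ * σ ^ i, mul_mem (mul_mem (inv_mem (pow_mem hσL j))
        (h.galOf_le hτ)) (pow_mem hσL i), ?_⟩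
      rw [mul_smul, mul_smul, e, inv_smul_smul]
    subst hVV'
    refine ⟨rfl, ?_⟩
    by_cases hs : Spl V
    swap
    · simp only [m, if_neg hs] at hi hj
      omega
    simp only [m, if_pos hs] at hi hj
    have hd : (σ ^ j)⁻¹ * τ * σ ^ i ∈ galOf K := hs ⟨(galOf L).mul_mem
        ((galOf L).mul_mem ((galOf L).inv_mem ((galOf L).pow_mem hσL j)) (h.galOf_le hτ))
        ((galOf L).pow_mem hσL i), by
      show ((σ ^ j)⁻¹ * τ * σ ^ i) • V = V
      rw [mul_smul, mul_smul, e, inv_smul_smul]⟩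
    have hd' : (σ ^ j)⁻¹ * σ ^ i ∈ galOf K := by
      have h1 : (σ ^ i)⁻¹ * τ⁻¹ * σ ^ i ∈ galOf K := by
        simpa using h.conj _ ((galOf L).inv_mem ((galOf L).pow_mem hσL i)) _ ((galOf K).inv_mem hτ)
      have h2 := mul_mem hd h1
      rwa [show (σ ^ j)⁻¹ * τ * σ ^ i * ((σ ^ i)⁻¹ * τ⁻¹ * σ ^ i) = (σ ^ j)⁻¹ * σ ^ i by group]
        at h2
    rcases le_total j i with hji | hij
    · rw [← Nat.add_sub_cancel' hji, pow_add, inv_mul_cancel_left] at hd'
      by_contra hne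
      exact h.pow_notMem (fun hdv => by have := Nat.le_of_dvd (by omega) hdv; omega) hd'
    · have hd'' := inv_mem hd'
      rw [mul_inv_rev, inv_inv, ← Nat.add_sub_cancel' hij, pow_add, inv_mul_cancel_left] at hd''
      by_contra hne
      exact h.pow_notMem (fun hdv => by have := Nat.le_of_dvd (by omega) hdv; omega) hd''
  refine ⟨R', ⟨fun W hW => ?_, fun W hW W' hW' he => ?_⟩, fun U => ⟨?_, ?_⟩, fun Rn hRn => ?_⟩
  · obtain ⟨V, hV, i, -, rfl⟩ := (hmem W).1 hW
    obtain ⟨l, hl, hVl⟩ := hR.lies V hV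
    exact ⟨l, hl, Places.liesOverPrime_smul _ _ hVl⟩
  · obtain ⟨V, hV, i, hi, rfl⟩ := (hmem W).1 hW
    obtain ⟨V', hV', j, hj, rfl⟩ := (hmem W').1 hW'
    obtain ⟨rfl, rfl⟩ := hinj V hV V' hV' i hi j hj he
    rfl
  · rintro ⟨W, hW, τ, hτ, rfl⟩
    obtain ⟨V, hV, i, -, rfl⟩ := (hmem W).1 hW
    exact ⟨V, hV, τ * σ ^ i, mul_mem (h.galOf_le hτ) (pow_mem hσL i), mul_smul _ _ _⟩
  · rintro ⟨V, hV, g, hg, rfl⟩
    rcases mem_split_or h V with hs | ⟨d, hd, hd'⟩
    · obtain ⟨i, hi, hiK⟩ := h.cover hg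
      refine ⟨σ ^ i • V, (hmem _).2 ⟨V, hV, i, by simp only [m]; rw [if_pos hs]; exact hi, rfl⟩,
        σ ^ i * ((σ ^ i)⁻¹ * g) * (σ ^ i)⁻¹, h.conj _ (pow_mem hσL i) _ hiK, ?_⟩
      rw [smul_smul]
      congr 1
      group
    · obtain ⟨i, hi, hiK⟩ := hd'.cover hg
      have hdV : d ^ i • V = V := pow_mem hd.mem.2 i
      have hns : ¬ Spl V := fun hs => hd.notMem (hs hd.mem)
      refine ⟨σ ^ 0 • V, (hmem _).2 ⟨V, hV, 0, by simp only [m]; rw [if_neg hns]; exact one_pos, rfl⟩,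
        d ^ i * ((d ^ i)⁻¹ * g) * (d ^ i)⁻¹, h.conj _ (pow_mem hd.mem.1 i) _ hiK, ?_⟩
      rw [pow_zero, one_smul]
      conv_lhs => rw [← hdV]
      rw [smul_smul]
      congr 1
      group
  · have hsub : Rn ⊆ R := fun V hV => ((hRn V).1 hV).1
    rw [Finset.card_biUnion fun V hV V' hV' hne => by
      refine Finset.disjoint_left.2 fun W hW hW' => hne ?_
      simp only [Finset.mem_image, Finset.mem_range] at hW hW'
      obtain ⟨i, hi, rfl⟩ := hW
      obtain ⟨j, hj, e⟩ := hW'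
      exact (hinj V hV V' hV' i hi j hj (e ▸ sameOrbit_refl _ _)).1]
    rw [Finset.sum_congr rfl fun V hV => (Finset.card_image_of_injOn fun i hi j hj e =>
      (hinj V hV V hV i (Finset.mem_range.1 hi) j (Finset.mem_range.1 hj)
        ((congrArg (SameOrbit (galOf K) (σ ^ i • V)) e) ▸ sameOrbit_refl _ _)).2).trans
      (Finset.card_range (m V)), ← Finset.sum_sdiff hsub,
      Finset.sum_congr rfl (s₁ := Rn) (g := fun _ => 1) fun V hV => if_neg ((hRn V).1 hV).2,
      Finset.sum_congr rfl (s₁ := R \ Rn) (g := fun _ => p) fun V hV => if_pos (by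
        rw [Finset.mem_sdiff, hRn] at hV
        by_contra hs
        exact hV.2 ⟨hV.1, hs⟩)]
    rw [Finset.sum_const, Finset.sum_const, Finset.card_sdiff_of_subset hsub, smul_eq_mul,
      smul_eq_mul, mul_one, mul_comm p, add_comm]

end FLTAgent.Lowering.P1.Hasse
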