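import Mathlib

/-!
# The iterated boundary in a group killed by the norm
-/

set_option autoImplicit false
set_option linter.unusedSectionVars false

noncomputable section

open Polynomial

namespace FLTAgent.Lowering.P1.Hasse

/-- In characteristic `p` the norm is a power of the boundary. -/
theorem exists_poly_eq (p : ℕ) [hp : Fact p.Prime] :
    ∃ Q : ℤ[X], (X - 1) ^ (p - 1) = ∑ i ∈ Finset.range p, X ^ i + (p : ℤ[X]) * Q := by
  suffices h : (((X - 1) ^ (p - 1) - ∑ i ∈ Finset.range p, X ^ i : ℤ[X]).map
      (Int.castRingHom (ZMod p))) = 0 by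
    obtain ⟨Q, hQ⟩ : ((p : ℤ[X])) ∣ ((X - 1) ^ (p - 1) - ∑ i ∈ Finset.range p, X ^ i) := by
      rw [show (p : ℤ[X]) = C (p : ℤ) from by simp]
      refine C_dvd_iff_dvd_coeff _ _ |>.2 fun i => ?_
      have h1 := congrArg (fun f => f.coeff i) h
      simp only [coeff_map, coeff_zero] at h1
      exact (ZMod.intCast_zmod_eq_zero_iff_dvd _ _).1 h1
    exact ⟨Q, by rw [← hQ]; ring⟩
  have hne : (X - 1 : (ZMod p)[X]) ≠ 0 := by
    simpa using X_sub_C_ne_zero (1 : ZMod p)
  refine (mul_eq_zero.1 (?_ : _ * (X - 1 : (ZMod p)[X]) = 0)).resolve_right hne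
  simp only [Polynomial.map_sub, Polynomial.map_pow, Polynomial.map_sum, map_X, Polynomial.map_one]
  rw [sub_mul, ← pow_succ, Nat.sub_add_cancel hp.out.one_le, geom_sum_mul, sub_pow_char, one_pow,
    sub_self]

/-- If the norm of `s` kills the group, the `p - 1`-fold boundary gives `p`-th powers. -/
theorem exists_pow_eq_iterate {M : Type*} [CommGroup M] {p : ℕ} [hp : Fact p.Prime] (s : M →* M)
    (hs : ∀ x, ∏ i ∈ Finset.range p, s^[i] x = 1) (x : M) :
    ∃ y : M, (fun z => s z / z)^[p - 1] x = y ^ p := by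
  obtain ⟨Q, hQ⟩ := exists_poly_eq p
  let S : AddMonoid.End (Additive M) := MonoidHom.toAdditive s
  have h := congrArg (fun f : ℤ[X] => (aeval S f : AddMonoid.End (Additive M)) (Additive.ofMul x))
    hQ
  simp only [map_pow, map_sub, aeval_X, map_one, map_add, map_sum, map_mul, map_natCast] at h
  refine ⟨((aeval S Q : AddMonoid.End (Additive M)) (Additive.ofMul x)).toMul, ?_⟩
  have hd : ∀ (n : ℕ) (z : M), ((S - 1) ^ n) (Additive.ofMul z) =
      Additive.ofMul ((fun z => s z / z)^[n] z) := by
    intro n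
    induction n with
    | zero => exact fun z => rfl
    | succ n ih =>
      intro z
      rw [pow_succ, Function.iterate_succ_apply, ← ih]
      rfl
  have hS : ∀ (n : ℕ) (z : M), (S ^ n) (Additive.ofMul z) = Additive.ofMul (s^[n] z) := by
    intro n
    induction n with
    | zero => exact fun z => rfl
    | succ n ih =>
      intro z
      rw [pow_succ, Function.iterate_succ_apply, ← ih]
      rfl
  have hsum : (∑ i ∈ Finset.range p, S ^ i) (Additive.ofMul x) = 0 := by
    have e : ∀ t : Finset ℕ, (∑ i ∈ t, S ^ i) (Additive.ofMul x) =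
        Additive.ofMul (∏ i ∈ t, s^[i] x) := by
      intro t
      induction t using Finset.cons_induction with
      | empty => rfl
      | cons a t ha ih =>
        rw [Finset.sum_cons, Finset.prod_cons, ofMul_mul, ← ih, ← hS]
        rfl
    rw [e, hs]
    rfl
  refine Additive.ofMul.injective ?_
  rw [← hd, h]
  show (∑ i ∈ Finset.range p, S ^ i) (Additive.ofMul x) +
    ((p : AddMonoid.End (Additive M))) ((aeval S Q : AddMonoid.End (Additive M)) (Additive.ofMul x)) = _
  rw [hsum, zero_add, AddMonoid.End.natCast_apply]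
  rfl

end FLTAgent.Lowering.P1.Hasse
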