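import Fermat.Agent.Lowering.P1.Brauer.Hasse.Basic
import Fermat.Agent.Mazur.Rational

/-!
# Numbers with a prescribed divisor, from the finiteness of the class group
-/

set_option autoImplicit false
set_option linter.style.haveILetI false
set_option linter.unusedSectionVars false

noncomputable section

open scoped Pointwise NumberField

namespace FLTAgent.Lowering.P1.Hasse

local notation "LL" => AlgebraicClosure ℚ
local notation "GG" => (AlgebraicClosure ℚ ≃ₐ[ℚ] AlgebraicClosure ℚ)
local notation "VS" => ValuationSubring (AlgebraicClosure ℚ)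

open Loc (SameOrbit)

local instance (priority := 2000) algSubP (F : IntermediateField ℚ (AlgebraicClosure ℚ)) :
    Algebra ℚ F := F.algebra'

variable {L : IntermediateField ℚ (AlgebraicClosure ℚ)}

/-- The prime of the integers of `L` under a place. -/
def primeUnder (L : IntermediateField ℚ LL) (V : VS) : Ideal (𝓞 L) :=
  (Frobenius.centre V).comap (Mazur.intEmbed L)

theorem coe_intEmbed (c : 𝓞 L) : ((Mazur.intEmbed L c : integralClosure ℤ LL) : LL) = ((c : L) : LL) :=
  rfl

theorem val_int_le (V : VS) (c : 𝓞 L) : V.valuation ((c : L) : LL) ≤ 1 :=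
  (V.valuation_le_one_iff _).2 (Frobenius.integralClosure_le V (Mazur.intEmbed L c))

theorem mem_primeUnder {V : VS} {c : 𝓞 L} :
    c ∈ primeUnder L V ↔ V.valuation ((c : L) : LL) < 1 := by
  rw [primeUnder, Ideal.mem_comap, Frobenius.mem_centre_iff, V.mem_nonunits_iff]
  rfl

theorem natCast_mem_primeUnder {V : VS} {l : ℕ} (hV : V.LiesOverPrime l) :
    (l : 𝓞 L) ∈ primeUnder L V := by
  rw [mem_primeUnder]
  simpa using Mazur.valuation_natCast_lt_one V hV

theorem primeUnder_ne_bot {V : VS} {l : ℕ} (hl : l.Prime) (hV : V.LiesOverPrime l) :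
    primeUnder L V ≠ ⊥ := fun h => by
  have h1 := natCast_mem_primeUnder (L := L) hV
  haveI : CharZero L := algebraRat.charZero L
  rw [h, Ideal.mem_bot] at h1
  exact hl.ne_zero (Nat.cast_eq_zero.1 h1)

local instance (priority := 900) normalLLP : Normal ℚ LL :=
  normal_iff.2 fun x => ⟨Brauer.integral_coe x, IsAlgClosed.splits _⟩

local instance (priority := 900) isGaloisLLP : IsGalois ℚ LL where
  to_isSeparable := haveI := AlgebraicClosure.isAlgebraic ℚ; inferInstance

variable [FiniteDimensional ℚ L]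

local instance (priority := 900) numberFieldP : NumberField L := ⟨⟩

/-- Units away from the orbit of `V` and from the norm of the auxiliary ideal. -/
theorem val_eq_one_of_span {l : ℕ} (hl : l.Prime) {V : VS} (hV : V.LiesOverPrime l)
    {J : Ideal (𝓞 L)} {x : 𝓞 L} {k : ℕ} (hx : primeUnder L V ^ k * J = Ideal.span {x}) {q : ℕ}
    (hq : q.Prime) {W : VS} (hW : W.LiesOverPrime q)
    (hne : ¬ SameOrbit (galOf L) V W) (hJ : ¬ q ∣ Ideal.absNorm J) :
    W.valuation ((x : L) : LL) = 1 := by
  haveI : NumberField L := ⟨⟩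
  obtain ⟨b, hbfix, hbV, hbW⟩ := Loc.exists_separating
    (IntermediateField.fixingSubgroup_isClosed L) hq hW hl hV
    fun h => hne (sameOrbit_symm h)
  have hbL : (b : LL) ∈ L := by
    rw [← InfiniteGalois.fixedField_fixingSubgroup L]
    exact Loc.mem_fixedField_of_smul hbfix
  have hbint : IsIntegral ℤ (⟨(b : LL), hbL⟩ : L) :=
    (isIntegral_algHom_iff (L.val.restrictScalars ℤ) Subtype.val_injective).1 b.2
  set c : 𝓞 L := ⟨⟨(b : LL), hbL⟩, hbint⟩
  have hcP : c ∈ primeUnder L V := by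
    rw [mem_primeUnder]
    exact V.mem_nonunits_iff.1 ((Frobenius.mem_centre_iff V).1 hbV)
  have hmem : c ^ k * (Ideal.absNorm J : 𝓞 L) ∈ Ideal.span {x} := by
    rw [← hx]
    exact Ideal.mul_mem_mul (Ideal.pow_mem_pow hcP k) (Ideal.absNorm_mem J)
  obtain ⟨y, hy⟩ := Ideal.mem_span_singleton'.1 hmem
  have h1 := congrArg (fun z : 𝓞 L => W.valuation ((z : L) : LL)) hy
  simp only [map_mul, map_pow, map_natCast, MulMemClass.coe_mul, SubmonoidClass.coe_pow] at h1
  have hc1 : W.valuation (((c : 𝓞 L) : L) : LL) = 1 := Mazur.valuation_eq_one_of_notMem W hbW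
  have hn1 : W.valuation (((Ideal.absNorm J : ℕ) : L) : LL) = 1 := by
    have h2 := Mazur.valuation_natCast_eq_one W hq hW hJ
    simpa using h2
  rw [hc1, hn1, one_pow, one_mul] at h1
  exact le_antisymm (val_int_le W x) (h1 ▸ mul_le_of_le_one_left' (val_int_le W y))

/-- A power of the prime under a place lies below one at the place. -/
theorem val_lt_one_of_span {V : VS}
    {J : Ideal (𝓞 L)} {x : 𝓞 L} {k : ℕ} (hk : k ≠ 0)
    (hx : primeUnder L V ^ k * J = Ideal.span {x}) : V.valuation ((x : L) : LL) < 1 := by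
  rw [← mem_primeUnder]
  have h : x ∈ primeUnder L V ^ k * J := by rw [hx]; exact Ideal.mem_span_singleton_self x
  exact Ideal.pow_le_self hk (Ideal.mul_le_left (I := primeUnder L V ^ k) (J := J) h)

/-- Prime to the auxiliary ideal the generator is a uniformiser. -/
theorem uniformiser_of_span {l : ℕ} (hl : l.Prime) {V : VS} (hV : V.LiesOverPrime l)
    {J : Ideal (𝓞 L)} {x : 𝓞 L} (hx : primeUnder L V * J = Ideal.span {x})
    (hJ : ¬ l ∣ Ideal.absNorm J) {z : LL} (hz : z ∈ localField L V) (hz0 : z ≠ 0) :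
    ∃ k : ℤ, V.valuation z = V.valuation ((x : L) : LL) ^ k := by
  haveI : NumberField L := ⟨⟩
  obtain ⟨π, hπL, hπ0, hπ1, hπ⟩ := Loc.exists_uniformiser hl hV L
  have hinj := (zpow_right_strictAnti₀ hπ0 hπ1)
  have hxlt : V.valuation ((x : L) : LL) < 1 := val_lt_one_of_span one_ne_zero (by rwa [pow_one])
  have hloc : ∀ c : 𝓞 L, ((c : L) : LL) ∈ localField L V := fun c =>
    Loc.le_localField L V (c : L).2
  have hx0 : ((x : L) : LL) ≠ 0 := by
    intro e
    have hxz : x = 0 := NumberField.RingOfIntegers.ext (Subtype.ext (by simpa using e))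
    rw [hxz, Ideal.span_singleton_eq_bot.2 rfl, ← Ideal.zero_eq_bot, mul_eq_zero] at hx
    rcases hx with h | h
    · exact primeUnder_ne_bot hl hV h
    · exact hJ (by rw [h, Ideal.zero_eq_bot, Ideal.absNorm_bot]; exact dvd_zero l)
  obtain ⟨m, hm⟩ := hπ _ (hloc x) hx0
  have hmpos : 0 < m := by
    have := hm ▸ hxlt
    rw [← zpow_zero (V.valuation π)] at this
    exact hinj.lt_iff_gt.1 this
  -- the values of the integers are powers of the value of `x`
  have key : ∀ n : ℕ, ∀ c : 𝓞 L, V.valuation ((c : L) : LL) = V.valuation π ^ (n : ℤ) →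
      m ∣ (n : ℤ) := by
    intro n
    induction n using Nat.strong_induction_on with
    | _ n ih =>
      intro c hc
      rcases Nat.eq_zero_or_pos n with rfl | hn
      · exact dvd_zero m
      have hcP : c ∈ primeUnder L V := by
        rw [mem_primeUnder, hc, ← zpow_zero (V.valuation π)]
        exact hinj (by omega)
      have hmem : c * (Ideal.absNorm J : 𝓞 L) ∈ Ideal.span {x} := by
        rw [← hx]
        exact Ideal.mul_mem_mul hcP (Ideal.absNorm_mem J)
      obtain ⟨y, hy⟩ := Ideal.mem_span_singleton'.1 hmem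
      have h1 := congrArg (fun z : 𝓞 L => V.valuation ((z : L) : LL)) hy
      simp only [map_mul, map_natCast, MulMemClass.coe_mul] at h1
      have hn1 : V.valuation (((Ideal.absNorm J : ℕ) : L) : LL) = 1 := by
        simpa using Mazur.valuation_natCast_eq_one V hl hV hJ
      rw [hn1, mul_one, hc, hm] at h1
      have hy0 : ((y : L) : LL) ≠ 0 := fun e => by
        rw [e, map_zero, zero_mul] at h1
        exact (zpow_ne_zero _ hπ0.ne') h1.symm
      obtain ⟨j, hj⟩ := hπ _ (hloc y) hy0
      rw [hj, ← zpow_add₀ hπ0.ne'] at h1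
      have hjn : j + m = n := hinj.injective h1
      have hj0 : 0 ≤ j := by
        have := hj ▸ val_int_le V y
        rw [← zpow_zero (V.valuation π)] at this
        exact hinj.le_iff_ge.1 this
      obtain ⟨j', rfl⟩ := Int.eq_ofNat_of_zero_le hj0
      rw [← hjn]
      exact dvd_add (ih j' (by omega) y hj) dvd_rfl
  obtain ⟨a, b, hb, hab⟩ := IsFractionRing.div_surjective (A := 𝓞 L) (⟨π, hπL⟩ : L)
  have hab' : ((a : L) : LL) / ((b : L) : LL) = π := congrArg Subtype.val hab
  have hπne : π ≠ 0 := fun e => by simp [e] at hπ0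
  have hb0 : ((b : L) : LL) ≠ 0 := fun e => hπne (by rw [← hab', e, div_zero])
  have ha0 : ((a : L) : LL) ≠ 0 := fun e => hπne (by rw [← hab', e, zero_div])
  obtain ⟨ja, hja⟩ := hπ _ (hloc a) ha0
  obtain ⟨jb, hjb⟩ := hπ _ (hloc b) hb0
  have hdvd : ∀ (c : 𝓞 L) (j : ℤ), V.valuation ((c : L) : LL) = V.valuation π ^ j → m ∣ j := by
    intro c j hj
    have hj0 : 0 ≤ j := by
      have := hj ▸ val_int_le V c
      rw [← zpow_zero (V.valuation π)] at this
      exact hinj.le_iff_ge.1 this
    obtain ⟨j', rfl⟩ := Int.eq_ofNat_of_zero_le hj0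
    exact key j' c hj
  have h1 : ja - jb = 1 := hinj.injective (by
    simp only [zpow_one]
    rw [zpow_sub₀ hπ0.ne', ← hja, ← hjb, ← map_div₀, hab'])
  have hm1 : m = 1 := Int.eq_one_of_dvd_one hmpos.le (h1 ▸ dvd_sub (hdvd a ja hja) (hdvd b jb hjb))
  obtain ⟨k, hk⟩ := hπ z hz hz0
  exact ⟨k, by rw [hk, hm, hm1, zpow_one]⟩

variable (L)

/-- A number with value below one only on the orbit of `V`. -/
theorem exists_orbit_elem {l : ℕ} (hl : l.Prime) {V : VS} (hV : V.LiesOverPrime l) :
    ∃ a ∈ L, a ≠ 0 ∧ V.valuation a < 1 ∧ ∀ (q : ℕ) (W : VS), q.Prime → W.LiesOverPrime q →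
      ¬ SameOrbit (galOf L) V W → W.valuation a = 1 := by
  haveI : NumberField L := ⟨⟩
  let P : nonZeroDivisors (Ideal (𝓞 L)) :=
    ⟨primeUnder L V, mem_nonZeroDivisors_of_ne_zero (primeUnder_ne_bot hl hV)⟩
  set h := Fintype.card (ClassGroup (𝓞 L))
  have hh : h ≠ 0 := Fintype.card_ne_zero
  have h1 : ClassGroup.mk0 (P ^ h) = 1 := by rw [map_pow, pow_card_eq_one]
  rw [ClassGroup.mk0_eq_one_iff] at h1
  obtain ⟨x, hx⟩ := h1
  have hx' : primeUnder L V ^ h * ⊤ = Ideal.span {x} := by
    rw [Ideal.mul_top]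
    exact hx
  refine ⟨((x : L) : LL), (x : L).2, fun e => ?_, val_lt_one_of_span hh hx', fun q W hq hW hne => ?_⟩
  · have hxz : x = 0 := NumberField.RingOfIntegers.ext (Subtype.ext (by simpa using e))
    have h2 : primeUnder L V ^ h = ⊥ := by
      rw [← Ideal.mul_top (primeUnder L V ^ h), hx', hxz, Ideal.span_singleton_eq_bot]
    exact pow_ne_zero h (primeUnder_ne_bot hl hV) h2
  · exact val_eq_one_of_span hl hV hx' hq hW hne (by
      rw [Ideal.absNorm_top]; exact hq.not_dvd_one)

/-- Away from finitely many primes every place has a uniformiser which is a unit at the other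
places away from them. -/
theorem exists_gen : ∃ S₀ : Finset ℕ, ∀ (l : ℕ) (V : VS), l.Prime → V.LiesOverPrime l → l ∉ S₀ →
    ∃ a ∈ L, a ≠ 0 ∧ V.valuation a < 1 ∧
      (∀ z ∈ localField L V, z ≠ 0 → ∃ k : ℤ, V.valuation z = V.valuation a ^ k) ∧
      ∀ (q : ℕ) (W : VS), q.Prime → W.LiesOverPrime q → q ∉ S₀ →
        ¬ SameOrbit (galOf L) V W → W.valuation a = 1 := by
  classical
  haveI : NumberField L := ⟨⟩
  choose J hJ using fun c : ClassGroup (𝓞 L) => ClassGroup.mk0_surjective c
  refine ⟨Finset.univ.biUnion fun c => (Ideal.absNorm (J c : Ideal (𝓞 L))).primeFactors,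
    fun l V hl hV hlS => ?_⟩
  have hnot : ∀ (c : ClassGroup (𝓞 L)) {q : ℕ}, q.Prime →
      q ∉ Finset.univ.biUnion (fun c => (Ideal.absNorm (J c : Ideal (𝓞 L))).primeFactors) →
        ¬ q ∣ Ideal.absNorm (J c : Ideal (𝓞 L)) := by
    intro c q hq hqS hd
    refine hqS (Finset.mem_biUnion.2 ⟨c, Finset.mem_univ _, Nat.mem_primeFactors.2 ⟨hq, hd, ?_⟩⟩)
    rw [Ne, Ideal.absNorm_eq_zero_iff]
    exact nonZeroDivisors.coe_ne_zero (J c)
  let P : nonZeroDivisors (Ideal (𝓞 L)) :=
    ⟨primeUnder L V, mem_nonZeroDivisors_of_ne_zero (primeUnder_ne_bot hl hV)⟩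
  set c := (ClassGroup.mk0 P)⁻¹
  have h1 : ClassGroup.mk0 (P * J c) = 1 := by rw [map_mul, hJ, mul_inv_cancel]
  rw [ClassGroup.mk0_eq_one_iff] at h1
  obtain ⟨x, hx⟩ := h1
  have hx' : primeUnder L V * (J c : Ideal (𝓞 L)) = Ideal.span {x} := hx
  have hlt := val_lt_one_of_span (k := 1) one_ne_zero (by rw [pow_one]; exact hx')
  refine ⟨((x : L) : LL), (x : L).2, fun e => ?_, hlt,
    fun z hz hz0 => uniformiser_of_span hl hV hx' (hnot c hl hlS) hz hz0,
    fun q W hq hW hqS hne => val_eq_one_of_span hl hV (k := 1) (by rw [pow_one]; exact hx') hq hW hne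
      (hnot c hq hqS)⟩
  have hxz : x = 0 := NumberField.RingOfIntegers.ext (Subtype.ext (by simpa using e))
  have h2 : primeUnder L V * (J c : Ideal (𝓞 L)) = ⊥ := by
    rw [hx', hxz, Ideal.span_singleton_eq_bot]
  exact mul_ne_zero (primeUnder_ne_bot hl hV) (nonZeroDivisors.coe_ne_zero _) h2

end FLTAgent.Lowering.P1.Hasse
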