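import Fermat.Agent.Lowering.P1.Brauer.Hasse.Principal

/-!
# Dirichlet's theorem for the units away from finitely many places
-/

set_option autoImplicit false
set_option linter.style.haveILetI false
set_option linter.unusedSectionVars false

noncomputable section

open scoped Pointwise NumberField

namespace FLTAgent.Lowering.P1.Hasse

local notation "LL" => AlgebraicClosure ℚ
local notation "GG" => (AlgebraicClosure ℚ ≃ₐ[ℚ] AlgebraicClosure ℚ)
local notation "VS" => ValuationSubring (AlgebraicClosure ℚ)

open Loc (SameOrbit fieldUnits)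

local instance (priority := 2000) algSubR (F : IntermediateField ℚ (AlgebraicClosure ℚ)) :
    Algebra ℚ F := F.algebra'

theorem finite_ker_pow {G : Type*} [CommGroup G] {p : ℕ} (ι : G →* LLˣ)
    (hι : Function.Injective ι) (hp : p ≠ 0) : Finite ↥(powP G p).ker := by
  haveI : NeZero p := ⟨hp⟩
  let e : ↥(powP G p).ker → ↥(rootsOfUnity p LL) := fun x => ⟨ι x, by
    rw [mem_rootsOfUnity, ← map_pow, show (x : G) ^ p = 1 from x.2, map_one]⟩
  exact Finite.of_injective e fun a b h => Subtype.ext (hι (congrArg Subtype.val h))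

/-- The rank pulls back along injective maps. -/
theorem powRank_of_map {G G' : Type*} [CommGroup G] [CommGroup G'] {p d : ℕ} {A : Subgroup G}
    {f : G →* G'} (hf : Function.Injective f) (h : PowRank p (A.map f) d) : PowRank p A d := by
  have e : A.map f ⊓ (powP G' p).ker = (A ⊓ (powP G p).ker).map f := by
    ext x
    constructor
    · rintro ⟨⟨y, hy, rfl⟩, hy'⟩
      exact ⟨y, ⟨hy, hf (by rw [powP_map, map_one]; exact hy')⟩, rfl⟩
    · rintro ⟨y, ⟨hy, hy'⟩, rfl⟩
      refine ⟨⟨y, hy, rfl⟩, ?_⟩
      show powP G' p (f y) = 1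
      rw [← powP_map, show powP G p y = 1 from hy', map_one]
  unfold PowRank at h ⊢
  rw [← map_map_pow, Subgroup.relIndex_map_map_of_injective _ _ hf, e] at h
  rw [h]
  congr 1
  exact (Nat.card_congr (Subgroup.equivMapOfInjective _ f hf).toEquiv).symm

variable {p : ℕ} [hp : Fact p.Prime] (F : IntermediateField ℚ LL) [FiniteDimensional ℚ F]

local instance (priority := 900) numberFieldR : NumberField F := ⟨⟩

/-- The rank of the units of the integers of a number field. -/
theorem powRank_units :
    PowRank p ((unitIncl F).range) (NumberField.Units.rank F) := by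
  classical
  let φ : Multiplicative (Fin (NumberField.Units.rank F) → ℤ) →* (𝓞 F)ˣ :=
    { toFun := fun x => ∏ i, NumberField.Units.fundSystem F i ^ x.toAdd i
      map_one' := by simp
      map_mul' := fun x y => by simp [zpow_add, Finset.prod_mul_distrib] }
  have hφ : Function.Injective φ := fun x y h => by
    obtain ⟨z, -, hz⟩ := NumberField.Units.exist_unique_eq_mul_prod F (φ x)
    have h1 := (hz (1, x.toAdd) (by simp [φ])).trans (hz (1, y.toAdd) (by rw [h]; simp [φ])).symm
    exact Multiplicative.toAdd.injective (congrArg Prod.snd h1)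
  haveI := finite_ker_pow (p := p) (unitIncl F) (unitIncl_injective F) hp.out.ne_zero
  haveI : NeZero p := ⟨hp.out.ne_zero⟩
  have h1 := (powRank_lattice (p := p) (Fin (NumberField.Units.rank F))).map hφ
  rw [Fintype.card_fin, ← MonoidHom.range_eq_map] at h1
  have hsup : φ.range ⊔ NumberField.Units.torsion F = ⊤ := by
    rw [eq_top_iff]
    intro x _
    obtain ⟨⟨ζ, e⟩, hx, -⟩ := NumberField.Units.exist_unique_eq_mul_prod F x
    rw [hx]
    exact mul_mem (Subgroup.mem_sup_right ζ.2)
      (Subgroup.mem_sup_left ⟨Multiplicative.ofAdd e, by simp [φ]⟩)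
  have hfin : φ.range.relIndex ⊤ ≠ 0 := by
    rw [← hsup, Subgroup.relIndex_sup_left]
    exact Subgroup.index_ne_zero_of_finite
  have h2 := (h1.sup le_top hfin).map (unitIncl_injective F)
  rwa [← MonoidHom.range_eq_map] at h2

variable {F}

theorem units_rank_eq (hp2 : 2 < p) (hζ : ∃ ζ ∈ F, IsPrimitiveRoot ζ p) :
    NumberField.Units.rank F = Module.finrank ℚ F / 2 - 1 := by
  obtain ⟨ζ, hζF, hζ⟩ := hζ
  have hζ' : IsPrimitiveRoot (⟨ζ, hζF⟩ : F) p :=
    IsPrimitiveRoot.of_map_of_injective (f := F.val) hζ Subtype.val_injective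
  have h1 := NumberField.InfinitePlace.IsPrimitiveRoot.nrRealPlaces_eq_zero_of_two_lt hp2 hζ'
  have h2 := NumberField.InfinitePlace.card_add_two_mul_card_eq_rank F
  have h3 := NumberField.InfinitePlace.card_eq_nrRealPlaces_add_nrComplexPlaces F
  rw [NumberField.Units.rank, h3, h1]
  rw [h1] at h2
  omega

/-- The powers of the numbers which are units away from `R`. -/
theorem powRank_unitsAway_self (hp2 : 2 < p) (hζ : ∃ ζ ∈ F, IsPrimitiveRoot ζ p) {R : Finset VS}
    (hR : IsPlaces F R) : PowRank p (unitsAway F F R) (Module.finrank ℚ F / 2 - 1 + R.card) := by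
  classical
  haveI : NeZero p := ⟨hp.out.ne_zero⟩
  set A := unitsAway F F R with hA
  choose lp hlp hover using fun V : R => hR.lies V V.2
  choose ord hsurj hiff hone using fun V : R => Loc.exists_ord (hlp V) (hover V) F
  have hAle : ∀ V : R, A ≤ fieldUnits F (V : VS) := fun V u hu =>
    Loc.le_localField F _ hu.1
  let f : ↥A →* Multiplicative (R → ℤ) :=
    { toFun := fun u => Multiplicative.ofAdd fun V =>
        (ord V ⟨(u : LLˣ), hAle V u.2⟩).toAdd
      map_one' := Multiplicative.toAdd.injective (funext fun V => by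
        show (ord V 1).toAdd = 0
        rw [map_one, toAdd_one])
      map_mul' := fun u v => Multiplicative.toAdd.injective (funext fun V => by
        show (ord V ⟨(u : LLˣ) * v, _⟩).toAdd =
          (ord V ⟨(u : LLˣ), hAle V u.2⟩).toAdd + (ord V ⟨(v : LLˣ), hAle V v.2⟩).toAdd
        rw [← toAdd_mul, ← map_mul]
        rfl) }
  have hf : ∀ (u : ↥A) (V : R), (f u).toAdd V = 0 ↔ (V : VS).valuation ((u : LLˣ) : LL) = 1 := by
    intro u V
    show (ord V ⟨(u : LLˣ), hAle V u.2⟩).toAdd = 0 ↔ _
    rw [toAdd_eq_zero, hone V]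
    exact ⟨fun h => h.2, fun h => ⟨hAle V u.2, h⟩⟩
  haveI := finite_ker_pow (p := p) A.subtype Subtype.val_injective hp.out.ne_zero
  haveI : Finite ↥(powP (Multiplicative (R → ℤ)) p).ker := by
    rw [ker_pow_lattice R hp.out.ne_zero]; infer_instance
  -- the kernel consists of the units
  have hker : PowRank p ((⊤ : Subgroup ↥A) ⊓ f.ker) (NumberField.Units.rank F) := by
    refine powRank_of_map (f := A.subtype) Subtype.val_injective ?_
    convert powRank_units (p := p) F using 1
    rw [← unitsAway_empty F F]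
    ext u
    constructor
    · rintro ⟨w, ⟨-, hw⟩, rfl⟩
      refine ⟨w.2.1, fun l V hl hV _ => ?_⟩
      by_cases hin : InOrbit (galOf F) R V
      · obtain ⟨W, hW, σ, hσ, rfl⟩ := hin
        have h1 := (hf w ⟨W, hW⟩).1 (by
          rw [show f w = 1 from hw]
          rfl)
        have hfix : σ ((w : LLˣ) : LL) = ((w : LLˣ) : LL) :=
          (IntermediateField.mem_fixingSubgroup_iff _ _).1 hσ _ w.2.1
        show (σ • W).valuation ((w : LLˣ) : LL) = 1
        rw [← hfix]
        exact (smul_val_eq_one_iff σ W _).2 h1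
      · exact w.2.2 l V hl hV hin
    · intro hu
      have huA : u ∈ A := unitsAway_mono (Finset.empty_subset R) hu
      refine ⟨⟨u, huA⟩, ⟨trivial, Multiplicative.toAdd.injective (funext fun V => ?_)⟩, rfl⟩
      exact (hf ⟨u, huA⟩ V).2 (hu.2 _ _ (hlp V) (hover V) fun ⟨W, hW, _⟩ => by simp at hW)
  -- the image has finite index
  have himage : PowRank p ((⊤ : Subgroup ↥A).map f) R.card := by
    have hlat := powRank_lattice (p := p) R
    rw [Fintype.card_coe] at hlat
    refine hlat.sub le_top ?_
    rw [Subgroup.relIndex_top_right, ← MonoidHom.range_eq_map]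
    choose a haF ha0 halt haun using fun V : R => exists_orbit_elem F (hlp V) (hover V)
    have haA : ∀ V : R, Units.mk0 (a V) (ha0 V) ∈ A := fun V =>
      ⟨haF V, fun q W hq hW hn => haun V q W hq hW fun hs => hn ⟨V, V.2, hs⟩⟩
    set m : R → ℤ := fun V => (f ⟨_, haA V⟩).toAdd V with hm
    have hm0 : ∀ V, m V ≠ 0 := fun V h => (halt V).ne ((hf ⟨_, haA V⟩ V).1 h)
    have hoff : ∀ V W : R, W ≠ V → (f ⟨_, haA V⟩).toAdd W = 0 := fun V W hne =>
      (hf _ W).2 (haun V _ W (hlp W) (hover W) fun hs =>
        hne (Subtype.ext (hR.inj _ V.2 _ W.2 hs)).symm)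
    set M : ℤ := ∏ V, m V with hM
    have hM0 : M ≠ 0 := Finset.prod_ne_zero_iff.2 fun V _ => hm0 V
    haveI : NeZero M.natAbs := ⟨Int.natAbs_ne_zero.2 hM0⟩
    have hle : (powP (Multiplicative (R → ℤ)) M.natAbs).range ≤ f.range := by
      rintro _ ⟨x, rfl⟩
      refine ⟨∏ V, (⟨_, haA V⟩ : ↥A) ^ (x.toAdd V * ((M.natAbs : ℤ) / m V)), ?_⟩
      rw [map_prod]
      refine Multiplicative.toAdd.injective (funext fun W => ?_)
      rw [toAdd_prod, Finset.sum_apply, Finset.sum_eq_single W]
      · rw [map_zpow, toAdd_zpow, Pi.smul_apply, smul_eq_mul, mul_assoc,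
          Int.ediv_mul_cancel (Int.dvd_natAbs.2 (Finset.dvd_prod_of_mem m (Finset.mem_univ W)))]
        show _ = (M.natAbs • x.toAdd) W
        rw [Pi.smul_apply, nsmul_eq_mul, mul_comm]
      · intro V _ hne
        rw [map_zpow, toAdd_zpow, Pi.smul_apply, hoff V W hne.symm, smul_zero]
      · exact fun h => absurd (Finset.mem_univ W) h
    intro h0
    have h1 := Subgroup.index_dvd_of_le hle
    rw [h0, zero_dvd_iff, index_pow_lattice] at h1
    exact pow_ne_zero _ (NeZero.ne _) h1
  have h := (PowRank.extension hker himage).map (f := A.subtype) Subtype.val_injective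
  rwa [← MonoidHom.range_eq_map, Subgroup.range_subtype, units_rank_eq hp2 hζ] at h

/-- The same for orbits under the group of a smaller field. -/
theorem powRank_unitsAway (hp2 : 2 < p) (hζ : ∃ ζ ∈ F, IsPrimitiveRoot ζ p)
    (L : IntermediateField ℚ LL) {R R' : Finset VS} (hR' : IsPlaces F R')
    (hsame : ∀ V : VS, InOrbit (galOf F) R' V ↔ InOrbit (galOf L) R V) :
    PowRank p (unitsAway F L R) (Module.finrank ℚ F / 2 - 1 + R'.card) := by
  convert powRank_unitsAway_self hp2 hζ hR' using 1
  ext u
  simp only [mem_unitsAway, hsame]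

end FLTAgent.Lowering.P1.Hasse
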