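import Fermat.Agent.Lowering.P1.Brauer.Hasse.Places
import Fermat.Agent.Lowering.P1.Brauer.Hasse.Poly
import Fermat.Agent.Lowering.P1.Brauer.Global

/-!
# The norm index of the units away from a large system of places
-/

set_option autoImplicit false
set_option linter.style.haveILetI false
set_option linter.unusedSectionVars false

noncomputable section

open scoped Pointwise

namespace FLTAgent.Lowering.P1.Hasse

local notation "LL" => AlgebraicClosure ℚ
local notation "GG" => (AlgebraicClosure ℚ ≃ₐ[ℚ] AlgebraicClosure ℚ)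
local notation "VS" => ValuationSubring (AlgebraicClosure ℚ)

open Loc (SameOrbit fieldUnits bd nm coe_bd coe_nm mem_fieldUnits)

/-- Away from `R` the divisors are principal. -/
def Gen (L : IntermediateField ℚ LL) (R : Finset VS) : Prop :=
  ∀ (l : ℕ) (V : VS), l.Prime → V.LiesOverPrime l → ¬ InOrbit (galOf L) R V →
    ∃ a ∈ L, a ≠ 0 ∧ (∀ z ∈ localField L V, z ≠ 0 → ∃ k : ℤ, V.valuation z = V.valuation a ^ k) ∧
      ∀ (q : ℕ) (W : VS), q.Prime → W.LiesOverPrime q → ¬ InOrbit (galOf L) R W →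
        ¬ SameOrbit (galOf L) V W → W.valuation a = 1

theorem Gen.mono {L : IntermediateField ℚ LL} {R R' : Finset VS} (h : Gen L R) (hR : R ⊆ R') :
    Gen L R' := by
  intro l V hl hV hn
  obtain ⟨a, haL, ha0, hu, hone⟩ := h l V hl hV fun ⟨W, hW, hWV⟩ => hn ⟨W, hR hW, hWV⟩
  exact ⟨a, haL, ha0, hu, fun q W hq hW hnW hne =>
    hone q W hq hW (fun ⟨U, hU, hUW⟩ => hnW ⟨U, hR hU, hUW⟩) hne⟩

/-- The extension is unramified outside `R`. -/
def Unram (L K : IntermediateField ℚ LL) (R : Finset VS) : Prop :=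
  ∀ (l : ℕ) (V : VS), l.Prime → V.LiesOverPrime l → ¬ InOrbit (galOf L) R V →
    ∀ τ ∈ galOf L, τ ∈ V.inertiaSubgroupIn ℚ → τ ∈ galOf K

/-- Indices of images. -/
theorem relIndex_map_of_le {G H : Type*} [CommGroup G] [CommGroup H] (f : G →* H)
    {A B : Subgroup G} (hBA : B ≤ A) :
    (B.map f).relIndex (A.map f) = (B ⊔ (A ⊓ f.ker)).relIndex A := by
  rw [Subgroup.relIndex_map_map]
  have h1 : (B ⊔ f.ker) ⊓ A = B ⊔ (A ⊓ f.ker) := by rw [sup_inf_assoc_of_le _ hBA, inf_comm]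
  rw [show A ⊔ f.ker = A ⊔ (B ⊔ f.ker) by rw [← sup_assoc, sup_eq_left.2 hBA],
    Subgroup.relIndex_sup_right, ← Subgroup.inf_relIndex_right, h1]

theorem relIndex_map_dvd {G H : Type*} [CommGroup G] [CommGroup H] (f : G →* H)
    {A B : Subgroup G} (hBA : B ≤ A) : (B.map f).relIndex (A.map f) ∣ B.relIndex A := by
  rw [relIndex_map_of_le f hBA]
  exact Subgroup.relIndex_dvd_of_le_left A le_sup_left

variable {p : ℕ} [hp : Fact p.Prime] {L : IntermediateField ℚ LL}

theorem mem_of_pow_eq_one (hζ : ∃ ζ ∈ L, IsPrimitiveRoot ζ p) {x : LL} (hx : x ^ p = 1) :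
    x ∈ L := by
  obtain ⟨ζ, hζL, hζ⟩ := hζ
  obtain ⟨i, -, rfl⟩ := hζ.eq_pow_of_pow_eq_one hx
  exact pow_mem hζL i

theorem mem_unitsAway_of_pow_eq_one (hζ : ∃ ζ ∈ L, IsPrimitiveRoot ζ p)
    {F : IntermediateField ℚ LL} (hF : L ≤ F) (R : Finset VS) {u : LLˣ} (hu : u ^ p = 1) :
    u ∈ unitsAway F L R := by
  have h : (u : LL) ^ p = 1 := by rw [← Units.val_pow_eq_pow_val, hu, Units.val_one]
  exact ⟨hF (mem_of_pow_eq_one hζ h), fun l V _ _ _ =>
    (pow_eq_one_iff_left hp.out.ne_zero).1 (by rw [← map_pow, h, map_one])⟩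

theorem card_inf_kerPow (hζ : ∃ ζ ∈ L, IsPrimitiveRoot ζ p) {A : Subgroup LLˣ}
    (hA : ∀ u : LLˣ, u ^ p = 1 → u ∈ A) : Nat.card ↥(A ⊓ (powP LLˣ p).ker) = p := by
  obtain ⟨ζ, -, hζ⟩ := hζ
  have e : A ⊓ (powP LLˣ p).ker = rootsOfUnity p LL := by
    ext u
    exact ⟨fun h => (mem_rootsOfUnity p u).2 h.2,
      fun h => ⟨hA u ((mem_rootsOfUnity p u).1 h), (mem_rootsOfUnity p u).1 h⟩⟩
  haveI : NeZero p := ⟨hp.out.ne_zero⟩
  rw [e, hζ.card_rootsOfUnity]

local instance (priority := 2000) algSubU (F : IntermediateField ℚ (AlgebraicClosure ℚ)) :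
    Algebra ℚ F := F.algebra'

theorem two_mul_half (hp2 : 2 < p) (hζ : ∃ ζ ∈ L, IsPrimitiveRoot ζ p) [FiniteDimensional ℚ L] :
    2 * (Module.finrank ℚ L / 2) = Module.finrank ℚ L ∧ 1 ≤ Module.finrank ℚ L / 2 := by
  haveI : NumberField L := ⟨⟩
  obtain ⟨ζ, hζF, hζ⟩ := hζ
  have hζ' : IsPrimitiveRoot (⟨ζ, hζF⟩ : L) p :=
    IsPrimitiveRoot.of_map_of_injective (f := L.val) hζ Subtype.val_injective
  have h1 := NumberField.InfinitePlace.IsPrimitiveRoot.nrRealPlaces_eq_zero_of_two_lt hp2 hζ'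
  have h2 := NumberField.InfinitePlace.card_add_two_mul_card_eq_rank L
  rw [h1] at h2
  have h0 : 0 < Module.finrank ℚ L := Module.finrank_pos
  omega

/-- The number of classes modulo `p`-th powers of the units away from `R`. -/
theorem relIndex_pow_unitsAway (hp2 : 2 < p) (hζ : ∃ ζ ∈ L, IsPrimitiveRoot ζ p)
    [FiniteDimensional ℚ L] {R : Finset VS} (hR : IsPlaces L R) :
    ((unitsAway L L R).map (powP LLˣ p)).relIndex (unitsAway L L R) =
      p ^ (Module.finrank ℚ L / 2 + R.card) := by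
  have h : ((unitsAway L L R).map (powP LLˣ p)).relIndex (unitsAway L L R) = _ :=
    powRank_unitsAway_self (p := p) hp2 hζ hR
  rw [h, card_inf_kerPow hζ fun u hu => mem_unitsAway_of_pow_eq_one hζ le_rfl R hu, ← pow_succ]
  have := (two_mul_half hp2 hζ).2
  congr 1
  omega

variable {K : IntermediateField ℚ LL} {σ : GG}

theorem finrank_mul (h : GCyc p L K σ) [FiniteDimensional ℚ L] [FiniteDimensional ℚ K] :
    Module.finrank ℚ K = p * Module.finrank ℚ L := by
  rw [← index_eq_finrank K, ← index_eq_finrank L, ← Subgroup.relIndex_mul_index h.galOf_le, h.index]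

theorem coe_unitsMap (g : GG) (u : LLˣ) :
    ((Units.map (g : LL →+* LL).toMonoidHom u : LLˣ) : LL) = g (u : LL) := rfl

theorem smul_mem_unitsAway (h : GCyc p L K σ) {R : Finset VS} {u : LLˣ}
    (hu : u ∈ unitsAway K L R) :
    Units.map (σ : LL →+* LL).toMonoidHom u ∈ unitsAway K L R := by
  refine ⟨?_, fun l V hl hV hn => ?_⟩
  · rw [coe_unitsMap, ← localField_top K]
    exact h.map_mem h.mem (by rw [localField_top]; exact hu.1)
  · rw [coe_unitsMap, ← smul_inv_smul σ V, smul_val_eq_one_iff]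
    refine hu.2 l _ hl (Places.liesOverPrime_smul _ _ hV) fun hin => hn ?_
    exact (inOrbit_congr ⟨σ, h.mem.1, smul_inv_smul σ V⟩).1 hin

theorem bd_mem_unitsAway (h : GCyc p L K σ) {R : Finset VS} {u : LLˣ}
    (hu : u ∈ unitsAway K L R) : bd σ u ∈ unitsAway K L R :=
  div_mem (smul_mem_unitsAway h hu) hu

theorem pow_smul_mem_unitsAway (h : GCyc p L K σ) {R : Finset VS} {u : LLˣ}
    (hu : u ∈ unitsAway K L R) : ∀ i : ℕ,
      Units.map ((σ ^ i : GG) : LL →+* LL).toMonoidHom u ∈ unitsAway K L R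
  | 0 => by convert hu; exact Units.ext rfl
  | i + 1 => by
    convert smul_mem_unitsAway h (pow_smul_mem_unitsAway h hu i) using 1
    exact Units.ext (by rw [coe_unitsMap, coe_unitsMap, coe_unitsMap, pow_succ', AlgEquiv.mul_apply])

theorem nm_mem_unitsAway (h : GCyc p L K σ) {R : Finset VS} {u : LLˣ}
    (hu : u ∈ unitsAway K L R) : nm σ p u ∈ unitsAway L L R := by
  refine ⟨mem_fieldUnits_top.1 (h.nm_mem (mem_fieldUnits_top.2 hu.1)), fun l V hl hV hn => ?_⟩
  rw [coe_nm, map_prod]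
  exact Finset.prod_eq_one fun i _ => (pow_smul_mem_unitsAway h hu i).2 l V hl hV hn

theorem bd_eq_one (h : GCyc p L K σ) {u : LLˣ} (hu : (u : LL) ∈ L) : bd σ u = 1 :=
  (h.bd_eq_one_iff (mem_fieldUnits_top.2 (h.le hu))).2 (mem_fieldUnits_top.2 hu)

/-- The values of an element of norm one are values of the base field away from `R`. -/
theorem exists_base_val (h : GCyc p L K σ) [FiniteDimensional ℚ L] [FiniteDimensional ℚ K]
    {R : Finset VS} (hgen : Gen L R) (hur : Unram L K R) {z : LLˣ} (hz : (z : LL) ∈ K)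
    (hzσ : bd σ z ∈ unitsAway K L R) :
    ∃ c : LLˣ, (c : LL) ∈ L ∧ ∀ (q : ℕ) (W : VS), q.Prime → W.LiesOverPrime q →
      ¬ InOrbit (galOf L) R W → W.valuation (z : LL) = W.valuation (c : LL) := by
  classical
  obtain ⟨S₀, hS₀⟩ := Brauer.exists_finset_eq_one z.ne_zero
  set S := S₀.filter Nat.Prime
  obtain ⟨P, hP, hPS, hPiff⟩ := exists_places L S fun l hl => (Finset.mem_filter.1 hl).2
  set T := P.filter fun V => ¬ InOrbit (galOf L) R V
  -- the generators
  have hloc : ∀ V ∈ T, ∃ c : LL, c ∈ L ∧ c ≠ 0 ∧ V.valuation (z : LL) = V.valuation c ∧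
      ∀ (q : ℕ) (W : VS), q.Prime → W.LiesOverPrime q → ¬ InOrbit (galOf L) R W →
        ¬ SameOrbit (galOf L) V W → W.valuation c = 1 := by
    intro V hV
    obtain ⟨hVP, hVn⟩ := Finset.mem_filter.1 hV
    obtain ⟨l, hl, hVl⟩ := hP.lies V hVP
    obtain ⟨a, haL, ha0, hau, haone⟩ := hgen l V hl hVl hVn
    obtain ⟨t, ht, ht0, htz⟩ : ∃ t ∈ localField L V, t ≠ 0 ∧
        V.valuation (z : LL) = V.valuation t := by
      have hzV : z ∈ fieldUnits K V := Loc.le_localField K V hz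
      rcases mem_split_or h V with hs | ⟨d, hd, -⟩
      · refine ⟨(z : LL), Loc.mem_localField.2 fun τ hτ => ?_, z.ne_zero, rfl⟩
        exact (IntermediateField.mem_fixingSubgroup_iff _ _).1 (hs hτ) _ hz
      · obtain ⟨u, hu, t, ht, hut⟩ := Subgroup.mem_sup.1
          (hd.intUnits_sup_eq hl hVl (hur l V hl hVl hVn) hzV)
        refine ⟨(t : LL), ht, t.ne_zero, ?_⟩
        rw [← hut, Units.val_mul, map_mul, hu.2, one_mul]
    obtain ⟨k, hk⟩ := hau t ht ht0
    refine ⟨a ^ k, zpow_mem haL k, zpow_ne_zero k ha0, by rw [map_zpow₀, htz, hk],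
      fun q W hq hW hn hne => ?_⟩
    rw [map_zpow₀, haone q W hq hW hn hne, one_zpow]
  choose! c hcL hc0 hcv hcone using hloc
  have hC0 : ∏ V ∈ T, c V ≠ 0 := Finset.prod_ne_zero_iff.2 hc0
  refine ⟨Units.mk0 _ hC0, by rw [Units.val_mk0]; exact prod_mem hcL, fun q W hq hW hn => ?_⟩
  rw [Units.val_mk0, map_prod]
  by_cases hqS : q ∈ S
  swap
  · rw [hS₀ q W hq hW fun hh => hqS (Finset.mem_filter.2 ⟨hh, hq⟩), eq_comm]
    refine Finset.prod_eq_one fun V hV => hcone V hV q W hq hW hn fun hs => hqS ?_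
    obtain ⟨hVP, -⟩ := Finset.mem_filter.1 hV
    exact (hPiff q W hq hW).1 ((inOrbit_congr hs).1 (inOrbit_of_mem hVP))
  obtain ⟨V, hVP, hVW⟩ := (hPiff q W hq hW).2 hqS
  have hVn : ¬ InOrbit (galOf L) R V := fun hh => hn ((inOrbit_congr hVW).1 hh)
  have hVT : V ∈ T := Finset.mem_filter.2 ⟨hVP, hVn⟩
  rw [Finset.prod_eq_single_of_mem V hVT fun U hU hne => hcone U hU q W hq hW hn fun hs => hne
    (hP.inj U (Finset.mem_filter.1 hU).1 V hVP (sameOrbit_trans hs (sameOrbit_symm hVW)))]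
  obtain ⟨g, hg, rfl⟩ := hVW
  have h1 : (g • V).valuation (g (z : LL)) = (g • V).valuation (g (c V)) :=
    (smul_val_eq_iff g V _ _).2 (hcv V hVT)
  rw [(IntermediateField.mem_fixingSubgroup_iff _ _).1 hg _ (hcL V hVT)] at h1
  rw [← h1]
  obtain ⟨i, -, hi⟩ := h.cover hg
  have hgz : g (z : LL) = (σ ^ i) (z : LL) := by
    conv_lhs => rw [show g = σ ^ i * ((σ ^ i)⁻¹ * g) by group, AlgEquiv.mul_apply,
      (IntermediateField.mem_fixingSubgroup_iff _ _).1 hi _ hz]
  rw [hgz]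
  clear hgz hi h1
  induction i with
  | zero => rfl
  | succ i ih =>
    rw [ih, pow_succ, AlgEquiv.mul_apply]
    have h2 := (pow_smul_mem_unitsAway h hzσ i).2 q _ hq hW hn
    rw [coe_unitsMap, coe_bd, map_div₀, map_div₀] at h2
    exact ((div_eq_one_iff_eq ((Valuation.ne_zero_iff _).2 ((map_ne_zero (σ ^ i)).2 z.ne_zero))).1 h2).symm

/-- **Hilbert 90** for the units away from `R`. -/
theorem kernel_eq_map_bd (h : GCyc p L K σ) [FiniteDimensional ℚ L] [FiniteDimensional ℚ K]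
    {R : Finset VS} (hgen : Gen L R) (hur : Unram L K R) :
    unitsAway K L R ⊓ (nm σ p).ker = (unitsAway K L R).map (bd σ) := by
  refine le_antisymm ?_ ?_
  · rintro m ⟨hm, hm'⟩
    obtain ⟨z, hz, rfl⟩ := h.hilbert90 (mem_fieldUnits_top.2 hm.1) hm'
    obtain ⟨c, hcL, hc⟩ := exists_base_val h hgen hur (mem_fieldUnits_top.1 hz) hm
    refine ⟨z / c, ⟨?_, fun l V hl hV hn => ?_⟩, ?_⟩
    · rw [Units.val_div_eq_div_val]
      exact div_mem (mem_fieldUnits_top.1 hz) (h.le hcL)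
    · rw [Units.val_div_eq_div_val, map_div₀, hc l V hl hV hn,
        div_self ((Valuation.ne_zero_iff _).2 c.ne_zero)]
    · rw [map_div, bd_eq_one h hcL, div_one]
  · rintro _ ⟨u, hu, rfl⟩
    exact ⟨bd_mem_unitsAway h hu, h.nm_bd (mem_fieldUnits_top.2 hu.1)⟩

/-- **The norm index of the units away from `R`**. -/
theorem index_norm_le (h : GCyc p L K σ) [FiniteDimensional ℚ L] [FiniteDimensional ℚ K]
    (hp2 : 2 < p) (hζ : ∃ ζ ∈ L, IsPrimitiveRoot ζ p) {R : Finset VS} (hR : IsPlaces L R)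
    (hgen : Gen L R) (hur : Unram L K R) {Rn : Finset VS}
    (hRn : ∀ V, V ∈ Rn ↔ V ∈ R ∧ ¬ galOf L ⊓ V.decompositionSubgroup ℚ ≤ galOf K) :
    p * ((unitsAway K L R).map (nm σ p)).relIndex (unitsAway L L R) ≤ p ^ Rn.card := by
  classical
  haveI := finite_ker_pow (p := p) (MonoidHom.id LLˣ) Function.injective_id hp.out.ne_zero
  obtain ⟨R', hR', hsame, hcard⟩ := exists_placesAbove h hR
  have hn : Rn.card ≤ R.card := Finset.card_le_card fun V hV => ((hRn V).1 hV).1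
  set A := unitsAway K L R with hAdef
  set B := unitsAway L L R with hBdef
  have hBA : B ≤ A := unitsAway_le_of_le h.le
  have hζK : ∃ ζ ∈ K, IsPrimitiveRoot ζ p := hζ.imp fun ζ hh => ⟨h.le hh.1, hh.2⟩
  obtain ⟨hr2, hr1⟩ := two_mul_half hp2 hζ
  set r := Module.finrank ℚ L / 2 with hr
  -- the norm
  have hnmB : B.map (nm σ p) = B.map (powP LLˣ p) := by
    have e : ∀ u ∈ B, nm σ p u = powP LLˣ p u := fun u hu =>
      h.nm_of_mem_base (mem_fieldUnits_top.2 hu.1)
    ext x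
    exact ⟨fun ⟨u, hu, hx⟩ => ⟨u, hu, (e u hu).symm.trans hx⟩,
      fun ⟨u, hu, hx⟩ => ⟨u, hu, (e u hu).trans hx⟩⟩
  have hNB : A.map (nm σ p) ≤ B := by
    rintro _ ⟨u, hu, rfl⟩
    exact nm_mem_unitsAway h hu
  have hBpow : (B.map (powP LLˣ p)).relIndex B = p ^ (r + R.card) :=
    relIndex_pow_unitsAway hp2 hζ hR
  have hPN : B.map (powP LLˣ p) ≤ A.map (nm σ p) := hnmB ▸ Subgroup.map_mono hBA
  set I := (A.map (nm σ p)).relIndex B with hI
  set J := (B ⊔ (A ⊓ (nm σ p).ker)).relIndex A with hJ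
  have hJI : J * I = p ^ (r + R.card) := by
    rw [hJ, hI, ← relIndex_map_of_le (nm σ p) hBA, hnmB,
      Subgroup.relIndex_mul_relIndex _ _ _ hPN hNB, hBpow]
  have hJ0 : J ≠ 0 := left_ne_zero_of_mul (hJI ▸ pow_ne_zero _ hp.out.ne_zero)
  have hI0 : I ≠ 0 := right_ne_zero_of_mul (hJI ▸ pow_ne_zero _ hp.out.ne_zero)
  set M := A ⊓ (nm σ p).ker with hMdef
  -- the rank of the kernel
  have hAr : PowRank p A (Module.finrank ℚ K / 2 - 1 + R'.card) :=
    powRank_unitsAway hp2 hζK L hR' hsame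
  have hNr : PowRank p (A.map (nm σ p)) (r - 1 + R.card) :=
    (powRank_unitsAway_self (p := p) hp2 hζ hR).sub hNB hI0
  have hKr : Module.finrank ℚ K / 2 = p * r := by
    rw [finrank_mul h, ← hr2, show p * (2 * r) = 2 * (p * r) by ring,
      Nat.mul_div_cancel_left _ two_pos]
  have hp1 : p * r = (p - 1) * r + r := by
    rw [← Nat.succ_mul, Nat.succ_eq_add_one, Nat.sub_add_cancel hp.out.one_le]
  have hd : Module.finrank ℚ K / 2 - 1 + R'.card =
      (r - 1 + R.card) + (p - 1) * (r + (R.card - Rn.card)) := by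
    rw [hKr, hcard Rn hRn, hp1, mul_add]
    have : p * (R.card - Rn.card) = (p - 1) * (R.card - Rn.card) + (R.card - Rn.card) := by
      rw [← Nat.succ_mul, Nat.succ_eq_add_one, Nat.sub_add_cancel hp.out.one_le]
    omega
  have hMr := PowRank.kernel hp.out.ne_zero hAr hNr (by omega)
  rw [hd, Nat.add_sub_cancel_left] at hMr
  have hζM : ∀ u : LLˣ, u ^ p = 1 → u ∈ M := fun u hu => by
    refine ⟨mem_unitsAway_of_pow_eq_one hζ h.le R hu, ?_⟩
    show nm σ p u = 1
    rw [h.nm_of_mem_base (mem_fieldUnits_top.2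
      (mem_unitsAway_of_pow_eq_one (F := L) hζ le_rfl R hu).1), hu]
  rw [PowRank, card_inf_kerPow hζ hζM, ← pow_succ] at hMr
  -- the iterated boundary
  have hMbd : A.map (bd σ) = M := (kernel_eq_map_bd h hgen hur).symm
  have hker : A ⊓ (bd σ).ker = B := by
    ext u
    refine ⟨fun ⟨hu, hu'⟩ => ⟨mem_fieldUnits_top.1
      ((h.bd_eq_one_iff (mem_fieldUnits_top.2 hu.1)).1 hu'), hu.2⟩,
      fun hu => ⟨hBA hu, bd_eq_one h hu.1⟩⟩
  obtain ⟨N, hN0, hN⟩ : ∃ N : ℕ → Subgroup LLˣ, N 0 = M ∧ ∀ j, N (j + 1) = (N j).map (bd σ) :=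
    ⟨fun j => (fun S : Subgroup LLˣ => S.map (bd σ))^[j] M, rfl,
      fun j => Function.iterate_succ_apply' _ _ _⟩
  have hMA : M ≤ A := inf_le_left
  have hN1 : N 1 ≤ M := by
    rw [hN, hN0]
    conv_rhs => rw [← hMbd]
    exact Subgroup.map_mono hMA
  have hNle : ∀ j, N (j + 1) ≤ N j := by
    intro j
    induction j with
    | zero => rw [hN0]; exact hN1
    | succ j ih =>
      rw [hN (j + 1)]
      conv_rhs => rw [hN j]
      exact Subgroup.map_mono ih
  have hstep : ∀ j, (N (j + 1)).relIndex (N j) ∣ J := by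
    intro j
    induction j with
    | zero =>
      rw [hN, hN0]
      conv_lhs => arg 2; rw [← hMbd]
      rw [relIndex_map_of_le _ hMA, hker, sup_comm]
    | succ j ih =>
      rw [hN (j + 1)]
      conv_lhs => arg 2; rw [hN j]
      exact (relIndex_map_dvd _ (hNle j)).trans ih
  have hdvd : ∀ j, N j ≤ M ∧ (N j).relIndex M ∣ J ^ j := by
    intro j
    induction j with
    | zero => rw [hN0, pow_zero, Subgroup.relIndex_self]; exact ⟨le_rfl, dvd_rfl⟩
    | succ j ih =>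
      refine ⟨(hNle j).trans ih.1, ?_⟩
      rw [← Subgroup.relIndex_mul_relIndex _ _ _ (hNle j) ih.1, pow_succ']
      exact mul_dvd_mul (hstep j) ih.2
  -- in degree `p - 1` only powers are left
  have hpow : N (p - 1) ≤ M.map (powP LLˣ p) := by
    have hstab : ∀ u : ↥M, Units.map (σ : LL →+* LL).toMonoidHom (u : LLˣ) ∈ M := fun u => by
      rw [show Units.map (σ : LL →+* LL).toMonoidHom (u : LLˣ) = bd σ u * (u : LLˣ) from
        (div_mul_cancel _ _).symm]
      exact mul_mem (hN1 (by rw [hN, hN0]; exact ⟨_, u.2, rfl⟩)) u.2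
    let s : ↥M →* ↥M :=
      ((Units.map (σ : LL →+* LL).toMonoidHom).comp M.subtype).codRestrict M hstab
    have hsi : ∀ (i : ℕ) (u : ↥M), (((s^[i] u : ↥M) : LLˣ) : LL) = (σ ^ i) ((u : LLˣ) : LL) := by
      intro i
      induction i with
      | zero => exact fun u => rfl
      | succ i ih =>
        intro u
        rw [Function.iterate_succ_apply, ih, pow_succ, AlgEquiv.mul_apply]
        rfl
    have hs : ∀ u : ↥M, ∏ i ∈ Finset.range p, s^[i] u = 1 := fun u => by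
      refine Subtype.ext (Units.ext ?_)
      rw [Subgroup.val_finset_prod, Units.coe_prod, Finset.prod_congr rfl fun i _ => hsi i u,
        ← coe_nm, show nm σ p (u : LLˣ) = 1 from u.2.2]
      rfl
    have hmem : ∀ j, ∀ m ∈ N j, ∃ u : ↥M, ((fun z => s z / z)^[j] u : LLˣ) = m := by
      intro j
      induction j with
      | zero => exact fun m hm => ⟨⟨m, hN0 ▸ hm⟩, rfl⟩
      | succ j ih =>
        intro m hm
        rw [hN] at hm
        obtain ⟨m', hm', rfl⟩ := hm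
        obtain ⟨u, rfl⟩ := ih m' hm'
        refine ⟨u, ?_⟩
        rw [Function.iterate_succ_apply']
        rfl
    intro m hm
    obtain ⟨u, rfl⟩ := hmem _ m hm
    obtain ⟨y, hy⟩ := exists_pow_eq_iterate s hs u
    exact ⟨y, y.2, by rw [hy]; rfl⟩
  -- conclusion
  have hfin : p ^ ((p - 1) * (r + (R.card - Rn.card)) + 1) ∣ J ^ (p - 1) := by
    rw [← hMr]
    exact (Subgroup.relIndex_dvd_of_le_left M hpow).trans (hdvd _).2
  obtain ⟨e, -, heJ⟩ := (Nat.dvd_prime_pow hp.out).1 (Dvd.intro I hJI)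
  rw [heJ, ← pow_mul] at hfin
  have h1 := Nat.pow_dvd_pow_iff_le_right hp.out.one_lt |>.1 hfin
  have he : r + (R.card - Rn.card) < e := by
    by_contra hle
    have := Nat.mul_le_mul_left (p - 1) (not_lt.1 hle)
    rw [mul_comm e] at h1
    omega
  have hle : p * (p ^ e * I) ≤ p ^ Rn.card * p ^ e := by
    rw [← heJ, hJI, heJ, ← pow_succ', ← pow_add]
    exact Nat.pow_le_pow_right hp.out.pos (by omega)
  exact Nat.le_of_mul_le_mul_right (by rw [mul_assoc, mul_comm I]; exact hle) (pow_pos hp.out.pos e)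

end FLTAgent.Lowering.P1.Hasse
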